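import Mathlib

/-!
# Systems of imprimitivity and coinduced representations (semilocal Shapiro, abstract core)

`G` a group, `M` a `k`-linear `G`-representation, `X` a finite transitive `G`-set and
`π x : M → M` a complete family of orthogonal projections permuted by `G`
(`ρ g ∘ π x = π (g • x) ∘ ρ g`).  Then for every `x0 : X` with stabiliser `H`, the block
`N0 = range (π x0)` is an `H`-representation and `M ≅ coind_H^G N0`, hence
`Hⁿ(G, M) ≅ Hⁿ(H, N0)` (Shapiro).

Typical instance: `M = ∏_{w ∣ v} L_w^×` with `G = Gal(L/K)` permuting the places above `v`.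
-/

namespace Fermat.Agent.CFT.C1

open CategoryTheory

universe u

variable {k G : Type u} [CommRing k] [Group G]

/-- A system of imprimitivity on a representation `M`, indexed by a finite `G`-set `X`:
a complete family of orthogonal idempotent endomorphisms `π x` permuted by the group. -/
structure ImprimitivitySystem (M : Rep.{u} k G) (X : Type*) [MulAction G X] [Fintype X] where
  /-- the projection onto the block indexed by `x` -/
  π : X → (M.V →ₗ[k] M.V)
  idem : ∀ x m, π x (π x m) = π x m
  ortho : ∀ x y, x ≠ y → ∀ m, π x (π y m) = 0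
  complete : ∀ m, ∑ x, π x m = m
  equivariant : ∀ g x m, M.ρ g (π x m) = π (g • x) (M.ρ g m)

namespace ImprimitivitySystem

variable {M : Rep.{u} k G} {X : Type*} [MulAction G X] [Fintype X]
  (S : ImprimitivitySystem M X)

/-- The block indexed by `x`: the image of the projection `π x`. -/
def block (x : X) : Submodule k M.V := LinearMap.range (S.π x)

lemma mem_block_iff {x : X} {m : M.V} : m ∈ S.block x ↔ S.π x m = m := by
  constructor
  · rintro ⟨m', rfl⟩
    exact S.idem x m'
  · intro h
    exact ⟨m, h⟩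

lemma π_mem_block (x : X) (m : M.V) : S.π x m ∈ S.block x := ⟨m, rfl⟩

lemma ρ_mem_block {g : G} {x : X} {m : M.V} (hm : m ∈ S.block x) :
    M.ρ g m ∈ S.block (g • x) := by
  rw [mem_block_iff] at hm ⊢
  rw [← S.equivariant, hm]

lemma map_block (g : G) (x : X) : (S.block x).map (M.ρ g) = S.block (g • x) := by
  apply le_antisymm
  · rintro _ ⟨m, hm, rfl⟩
    exact S.ρ_mem_block hm
  · intro m hm
    refine ⟨M.ρ g⁻¹ m, ?_, by simp⟩
    have := S.ρ_mem_block (g := g⁻¹) hm
    simpa using this

variable (x0 : X)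

/-- The stabiliser of `x0` acts on the block at `x0`. -/
noncomputable abbrev stabRep : Rep.{u} k (MulAction.stabilizer G x0) :=
  Rep.subrepresentation (Rep.res (MulAction.stabilizer G x0).subtype M) (S.block x0)
    (fun h m hm => by
      have := S.ρ_mem_block (g := (h : G)) hm
      rw [h.2] at this
      exact this)

lemma stabRep_ρ_coe (h : MulAction.stabilizer G x0) (n : (S.stabRep x0).V) :
    (((S.stabRep x0).ρ h n : S.block x0) : M.V) = M.ρ (h : G) (n : S.block x0) := rfl

/-- The `H`-equivariant projection of `M` onto the block at `x0`. -/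
noncomputable def proj : Rep.res (MulAction.stabilizer G x0).subtype M ⟶ S.stabRep x0 :=
  Rep.ofHom ⟨(S.π x0).rangeRestrict, fun h => by
    ext m
    change S.π x0 (M.ρ (h : G) m) = M.ρ (h : G) (S.π x0 m)
    rw [S.equivariant, h.2]⟩

lemma proj_hom_coe (m : M.V) : (((S.proj x0).hom m : S.block x0) : M.V) = S.π x0 m := rfl

/-- The comparison map `M ⟶ coind_H^G (block x0)`, `m ↦ (g ↦ π x0 (g • m))`. -/
noncomputable def toCoind : M ⟶ Rep.coind (MulAction.stabilizer G x0).subtype (S.stabRep x0) :=
  Rep.resCoindToHom (MulAction.stabilizer G x0).subtype M (S.stabRep x0) (S.proj x0)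

lemma toCoind_hom_apply_coe (m : M.V) (g : G) :
    ((((S.toCoind x0).hom m).1 g : S.block x0) : M.V) = S.π x0 (M.ρ g m) := rfl

variable [MulAction.IsPretransitive G X]

lemma toCoind_injective : Function.Injective (S.toCoind x0).hom := by
  rw [injective_iff_map_eq_zero]
  intro m hm
  have h0 : ∀ g : G, S.π x0 (M.ρ g m) = 0 := by
    intro g
    rw [← S.toCoind_hom_apply_coe x0 m g, hm]
    rfl
  have h1 : ∀ x, S.π x m = 0 := by
    intro x
    obtain ⟨g, hg⟩ := MulAction.exists_smul_eq G x x0
    have := S.equivariant g x m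
    rw [hg, h0 g] at this
    have h2 := congrArg (M.ρ g⁻¹) this
    simpa using h2
  rw [← S.complete m]
  exact Finset.sum_eq_zero fun x _ => h1 x

lemma toCoind_surjective : Function.Surjective (S.toCoind x0).hom := by
  classical
  intro f
  choose γ hγ using fun x => MulAction.exists_smul_eq G x x0
  refine ⟨∑ x, M.ρ (γ x)⁻¹ ((f.1 (γ x) : S.block x0) : M.V), ?_⟩
  apply Subtype.ext
  funext g
  apply Subtype.ext
  rw [toCoind_hom_apply_coe, map_sum, map_sum]
  set y : X := g⁻¹ • x0 with hy
  have hgy : g • y = x0 := by simp [hy]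
  have hρ : ∀ (a b : G) (m : M.V), M.ρ a (M.ρ b m) = M.ρ (a * b) m := fun a b m => by
    rw [map_mul]; rfl
  rw [Finset.sum_eq_single y]
  · -- the surviving term
    have hmem : g * (γ y)⁻¹ ∈ MulAction.stabilizer G x0 := by
      rw [MulAction.mem_stabilizer_iff, mul_smul]
      have : (γ y)⁻¹ • x0 = y := by rw [← hγ y]; simp
      rw [this, hgy]
    have hf := f.2 ⟨g * (γ y)⁻¹, hmem⟩ (γ y)
    simp only [Subgroup.subtype_apply, inv_mul_cancel_right] at hf
    have hf' : ((f.1 g : S.block x0) : M.V) =
        M.ρ (g * (γ y)⁻¹) ((f.1 (γ y) : S.block x0) : M.V) := by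
      rw [hf]; rfl
    rw [hρ, ← hf']
    exact (S.mem_block_iff).1 (f.1 g).2
  · intro x _ hxy
    have hv : S.π x0 ((f.1 (γ x) : S.block x0) : M.V) = ((f.1 (γ x) : S.block x0) : M.V) :=
      (S.mem_block_iff).1 (f.1 (γ x)).2
    rw [hρ, ← hv, S.equivariant]
    apply S.ortho
    intro h
    apply hxy
    have : (γ x)⁻¹ • x0 = x := by rw [← hγ x]; simp
    rw [mul_smul, this] at h
    rw [hy, h]; simp
  · intro h; exact absurd (Finset.mem_univ y) h

/-- **Imprimitivity theorem**: `M ≅ coind_H^G (block x0)` for `H` the stabiliser of `x0`. -/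
noncomputable def coindIso :
    M ≅ Rep.coind (MulAction.stabilizer G x0).subtype (S.stabRep x0) :=
  haveI : Mono (S.toCoind x0) := (Rep.mono_iff_injective _).2 (S.toCoind_injective x0)
  haveI : Epi (S.toCoind x0) := (Rep.epi_iff_surjective _).2 (S.toCoind_surjective x0)
  haveI : IsIso (S.toCoind x0) := isIso_of_mono_of_epi _
  asIso (S.toCoind x0)

@[simp] lemma coindIso_hom : (S.coindIso x0).hom = S.toCoind x0 := rfl

/-- **Semilocal Shapiro**: `Hⁿ(G, M) ≅ Hⁿ(H, block x0)`. -/
noncomputable def shapiroIso (n : ℕ) :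
    groupCohomology M n ≅ groupCohomology (S.stabRep x0) n :=
  (groupCohomology.functor k G n).mapIso (S.coindIso x0) ≪≫
    groupCohomology.coindIso (S.stabRep x0) n

end ImprimitivitySystem

end Fermat.Agent.CFT.C1
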