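import Fermat.Agent.CFT.C1.LocalGalois
import Fermat.Agent.CFT.Idele.Rep

/-!
# Semilocal Shapiro on the tensor model `Loc L q = L ⊗[ℚ] ℚ_q`
-/

namespace Fermat.Agent.CFT.C1.LocGalois

open Fermat.Agent.CFT.Idele Fermat.Agent.CFT.C1.SemilocalHom Fermat.Agent.CFT.C1.LocalGalois
open scoped TensorProduct Fermat.Agent.CFT.Idele Fermat.Agent.CFT.C1

section Ring

variable (L : Type*) [Field L] [Algebra ℚ L] (q : Nat.Primes)

/-- The `ℚ_q`-algebra structure of `Loc L q = L ⊗[ℚ] ℚ_q` through the right factor. -/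
@[instance_reducible] noncomputable def algebraQ : Algebra ℚ_[(q : ℕ)] (Loc L q) :=
  (inclQ L q).toAlgebra

scoped[Fermat.Agent.CFT.C1] attribute [instance] Fermat.Agent.CFT.C1.LocGalois.algebraQ

lemma algebraMap_eq_inclQ : algebraMap ℚ_[(q : ℕ)] (Loc L q) = inclQ L q := rfl

variable [FiniteDimensional ℚ L]

instance moduleFinite : Module.Finite ℚ_[(q : ℕ)] (Loc L q) := by
  refine Module.Finite.of_equiv_equiv (A₁ := ℚ_[(q : ℕ)]) (B₁ := ℚ_[(q : ℕ)] ⊗[ℚ] L)
    (RingEquiv.refl _) (Algebra.TensorProduct.comm ℚ ℚ_[(q : ℕ)] L).toRingEquiv ?_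
  ext c
  simp [algebraMap_eq_inclQ, inclQ_apply]

instance isArtinianRing : IsArtinianRing (Loc L q) :=
  IsArtinianRing.of_finite ℚ_[(q : ℕ)] (Loc L q)

instance isReduced : IsReduced (Loc L q) := by
  have : Algebra.FormallyUnramified ℚ L := Algebra.FormallyUnramified.of_isSeparable ℚ L
  have : IsReduced (ℚ_[(q : ℕ)] ⊗[ℚ] L) :=
    Algebra.FormallyUnramified.isReduced_of_field ℚ_[(q : ℕ)] (ℚ_[(q : ℕ)] ⊗[ℚ] L)
  exact isReduced_of_injective (Algebra.TensorProduct.comm ℚ L ℚ_[(q : ℕ)]).toRingEquiv.toRingHom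
    (Algebra.TensorProduct.comm ℚ L ℚ_[(q : ℕ)]).injective

noncomputable instance fintypeMaximalSpectrum : Fintype (MaximalSpectrum (Loc L q)) :=
  Fintype.ofFinite _

end Ring

section Action

variable {L : Type} [Field L] [Algebra ℚ L] {G : Type} [Group G] (φ : G →* (L ≃ₐ[ℚ] L))
  (q : Nat.Primes)

/-- The action of `G` on `Loc L q = L ⊗[ℚ] ℚ_q` through `φ : G →* Gal(L/ℚ)`, as a hom to ring
automorphisms. -/
noncomputable def locRho : G →* RingAut (Loc L q) where
  toFun g := (Loc.aut L q (φ g)).toRingEquiv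
  map_one' := by
    ext x
    change Loc.aut L q (φ 1) x = x
    rw [map_one, Loc.aut_one]; rfl
  map_mul' g h := by
    ext x
    change Loc.aut L q (φ (g * h)) x = Loc.aut L q (φ g) (Loc.aut L q (φ h) x)
    rw [map_mul, Loc.aut_mul_apply]

lemma locRho_apply (g : G) (x : Loc L q) : locRho φ q g x = Loc.aut L q (φ g) x := rfl

lemma locRho_inclQ (g : G) (c : ℚ_[(q : ℕ)]) : locRho φ q g (inclQ L q c) = inclQ L q c := by
  rw [locRho_apply, Loc.aut_inclQ]

lemma locRho_inclL (g : G) (a : L) : locRho φ q g (inclL L q a) = inclL L q (φ g a) := by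
  rw [locRho_apply, Loc.aut_inclL]

lemma locRho_algebraMap (g : G) (c : ℚ_[(q : ℕ)]) :
    locRho φ q g (algebraMap ℚ_[(q : ℕ)] (Loc L q) c) = algebraMap ℚ_[(q : ℕ)] (Loc L q) c :=
  locRho_inclQ φ q g c

/-- The units of `Loc L q` as a `G`-module. -/
noncomputable abbrev locUnitsRep : Rep ℤ G := unitsRep (locRho φ q)

end Action

section General

variable {G B : Type} [Group G] [CommRing B] (ρ : G →* RingAut B)

/-- Orbit representatives for the action on the maximal spectrum always exist. -/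
theorem exists_orbit_representatives [Finite (MaximalSpectrum B)] :
    ∃ (ι : Type) (_ : Fintype ι) (r : ι → MaximalSpectrum B),
      (∀ 𝔪, ∃ i, ∃ g : G, placeSMul ρ g (r i) = 𝔪) ∧
      (∀ i j, (∃ g : G, placeSMul ρ g (r i) = r j) → i = j) := by
  classical
  let _ := placeAction ρ
  have := Fintype.ofFinite (MaximalSpectrum B)
  refine ⟨MulAction.orbitRel.Quotient G (MaximalSpectrum B), inferInstance, Quotient.out, ?_, ?_⟩
  · intro 𝔪
    refine ⟨Quotient.mk'' 𝔪, ?_⟩
    have h : Quotient.out (Quotient.mk'' 𝔪 : MulAction.orbitRel.Quotient G (MaximalSpectrum B)) ∈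
        MulAction.orbit G 𝔪 := by
      rw [← MulAction.orbitRel_apply]
      exact Quotient.mk_out (s := MulAction.orbitRel G (MaximalSpectrum B)) 𝔪
    rw [MulAction.mem_orbit_iff] at h
    obtain ⟨g, hg⟩ := h
    refine ⟨g⁻¹, ?_⟩
    change g⁻¹ • _ = 𝔪
    rw [← hg, inv_smul_smul]
  · rintro i j ⟨g, hg⟩
    have h : (Quotient.mk'' (Quotient.out i) : MulAction.orbitRel.Quotient G (MaximalSpectrum B)) =
        Quotient.mk'' (Quotient.out j) := by
      apply Quotient.sound'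
      rw [MulAction.orbitRel_apply, MulAction.mem_orbit_iff]
      exact ⟨g⁻¹, by rw [← hg]; exact inv_smul_smul g _⟩
    simpa using h

/-- **Semilocal Hilbert 90** without a choice of orbit representatives. -/
theorem subsingleton_H1_unitsRep_of_faithful [Finite G] [IsArtinianRing B] [IsReduced B]
    (hfaith : ∀ (𝔪 : MaximalSpectrum B) (h : decomp ρ 𝔪),
      (∀ x : B ⧸ 𝔪.asIdeal, quotAut ρ 𝔪 h x = x) → h = 1) :
    Subsingleton (groupCohomology (unitsRep ρ) 1) := by
  have := Fintype.ofFinite (MaximalSpectrum B)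
  obtain ⟨ι, _, r, h1, h2⟩ := exists_orbit_representatives ρ
  exact subsingleton_H1_unitsRep ρ r h1 h2 (fun i => hfaith (r i))

end General

section Residue

variable {L : Type} [Field L] [Algebra ℚ L] {G : Type} [Group G] (φ : G →* (L ≃ₐ[ℚ] L))
  (q : Nat.Primes) (𝔪 : MaximalSpectrum (Loc L q))

/-- The residue field at a maximal ideal of `Loc L q` (a finite extension `L_w` of `ℚ_q`). -/
abbrev Lw : Type := Loc L q ⧸ 𝔪.asIdeal

noncomputable example : Field (Lw q 𝔪) := inferInstance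
noncomputable example : Algebra ℚ_[(q : ℕ)] (Lw q 𝔪) := inferInstance
noncomputable example : Algebra L (Lw q 𝔪) := inferInstance
example [FiniteDimensional ℚ L] : FiniteDimensional ℚ_[(q : ℕ)] (Lw q 𝔪) := inferInstance

/-- The embedding `L → L_w`. -/
noncomputable def toLw : L →+* Lw q 𝔪 := (Ideal.Quotient.mk 𝔪.asIdeal).comp (inclL L q)

lemma toLw_injective : Function.Injective (toLw q 𝔪) := (toLw q 𝔪).injective

lemma quotAut_toLw (h : decomp (locRho φ q) 𝔪) (a : L) :
    quotAut (locRho φ q) 𝔪 h (toLw q 𝔪 a) = toLw q 𝔪 (φ h a) := by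
  change quotAut (locRho φ q) 𝔪 h (Ideal.Quotient.mk _ (inclL L q a)) = _
  rw [quotAut_mk, locRho_inclL]; rfl

lemma quotAut_algebraMap (h : decomp (locRho φ q) 𝔪) (c : ℚ_[(q : ℕ)]) :
    quotAut (locRho φ q) 𝔪 h (algebraMap ℚ_[(q : ℕ)] (Lw q 𝔪) c) =
      algebraMap ℚ_[(q : ℕ)] (Lw q 𝔪) c := by
  change quotAut (locRho φ q) 𝔪 h (Ideal.Quotient.mk _ (inclQ L q c)) = _
  rw [quotAut_mk, locRho_inclQ]; rfl

/-- The decomposition groups act faithfully on the residue fields when `φ` is injective. -/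
theorem faithful_of_injective (hφ : Function.Injective φ) (h : decomp (locRho φ q) 𝔪)
    (hx : ∀ x : Lw q 𝔪, quotAut (locRho φ q) 𝔪 h x = x) : h = 1 := by
  have h1 : φ (h : G) = 1 := by
    ext a
    apply toLw_injective q 𝔪
    rw [← quotAut_toLw, hx]; rfl
  have h2 : (h : G) = 1 := hφ (by rw [h1, map_one])
  exact Subtype.ext h2

/-- Nonzero natural numbers are invertible in `Loc L q`. -/
lemma isUnit_natCast {n : ℕ} (hn : n ≠ 0) : IsUnit ((n : ℕ) : Loc L q) := by
  have h : ((n : ℕ) : Loc L q) = algebraMap ℚ (Loc L q) (n : ℚ) := by rw [map_natCast]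
  rw [h]
  exact (IsUnit.mk0 (n : ℚ) (by exact_mod_cast hn)).map _

/-- **Semilocal Hilbert 90 on the tensor model**: `H¹(G, (L ⊗ ℚ_q)ˣ) = 0` for a finite group `G`
acting faithfully on the number field `L`. -/
theorem subsingleton_H1_locUnitsRep [FiniteDimensional ℚ L] [Finite G]
    (hφ : Function.Injective φ) :
    Subsingleton (groupCohomology (locUnitsRep φ q) 1) :=
  subsingleton_H1_unitsRep_of_faithful (locRho φ q)
    (fun 𝔪 h hx => faithful_of_injective φ q 𝔪 hφ h hx)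

/-! ### The fixed field `K_v` of the decomposition group as a field finite over `ℚ_q` -/

/-- The fixed field of the decomposition group of `𝔪` in the residue field `L_w`. -/
noncomputable abbrev Kv : Subfield (Lw q 𝔪) := fixedField (locRho φ q) 𝔪

lemma algebraMap_mem_Kv (c : ℚ_[(q : ℕ)]) : algebraMap ℚ_[(q : ℕ)] (Lw q 𝔪) c ∈ Kv φ q 𝔪 :=
  (mem_fixedField_iff _ _ _).2 fun h => quotAut_algebraMap φ q 𝔪 h c

noncomputable instance algebraKv : Algebra ℚ_[(q : ℕ)] (Kv φ q 𝔪) :=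
  ((algebraMap ℚ_[(q : ℕ)] (Lw q 𝔪)).codRestrict (Kv φ q 𝔪).toSubring
    (algebraMap_mem_Kv φ q 𝔪)).toAlgebra

instance isScalarTower_Kv : IsScalarTower ℚ_[(q : ℕ)] (Kv φ q 𝔪) (Lw q 𝔪) :=
  IsScalarTower.of_algebraMap_eq fun _ => rfl

instance finiteDimensional_Kv [FiniteDimensional ℚ L] :
    FiniteDimensional ℚ_[(q : ℕ)] (Kv φ q 𝔪) :=
  FiniteDimensional.of_injective
    (IsScalarTower.toAlgHom ℚ_[(q : ℕ)] (Kv φ q 𝔪) (Lw q 𝔪)).toLinearMap
    (algebraMap (Kv φ q 𝔪) (Lw q 𝔪)).injective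

instance isGalois_Kv [Finite G] : IsGalois (Kv φ q 𝔪) (Lw q 𝔪) :=
  isGalois_fixedField (locRho φ q) 𝔪

instance finiteDimensional_Lw_Kv [Finite G] : FiniteDimensional (Kv φ q 𝔪) (Lw q 𝔪) :=
  finiteDimensional_fixedField (locRho φ q) 𝔪

/-- The decomposition group is the local Galois group `Gal(L_w/K_v)`. -/
noncomputable def decompEquivGal [Finite G] (hφ : Function.Injective φ) :
    decomp (locRho φ q) 𝔪 ≃* ((Lw q 𝔪) ≃ₐ[Kv φ q 𝔪] (Lw q 𝔪)) :=
  decompEquiv (locRho φ q) 𝔪 (faithful_of_injective φ q 𝔪 hφ)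

lemma card_decomp_eq_finrank [Finite G] (hφ : Function.Injective φ) :
    Nat.card (decomp (locRho φ q) 𝔪) = Module.finrank (Kv φ q 𝔪) (Lw q 𝔪) := by
  rw [Nat.card_congr (decompEquivGal φ q 𝔪 hφ).toEquiv, IsGalois.card_aut_eq_finrank]

end Residue

end Fermat.Agent.CFT.C1.LocGalois
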