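import Fermat.Agent.CFT.C1.LocGalois
import Fermat.Agent.CFT.Idele.ClassDescent

/-!
# Semilocal Shapiro on the tensor model, relative form

`L/K` a finite Galois extension of number fields, `G = Gal(L/K)` acting on `Loc L q = L ⊗[ℚ] ℚ_q`.
The maximal ideals of `Loc L q` lie over those of `Loc K q`, `G` is transitive on the fibres, and
the fixed field of the decomposition group of `w` in `L_w` is the image of `K_v`.
-/

namespace Fermat.Agent.CFT.C1.LocRelative

open Fermat.Agent.CFT.Idele Fermat.Agent.CFT.C1.SemilocalHom Fermat.Agent.CFT.C1.LocalGalois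
  Fermat.Agent.CFT.C1.LocGalois
open scoped TensorProduct Fermat.Agent.CFT.Idele Fermat.Agent.CFT.C1 Pointwise

variable (K L : Type) [Field K] [Field L] [Algebra ℚ K] [Algebra ℚ L] [Algebra K L]
  [IsScalarTower ℚ K L] (q : Nat.Primes)

/-- The action of `Gal(L/K)` on `Loc L q`. -/
noncomputable abbrev relRho : (L ≃ₐ[K] L) →* RingAut (Loc L q) := locRho (galHom K L) q

/-- The inclusion `Loc K q → Loc L q`. -/
noncomputable abbrev locIncl : Loc K q →+* Loc L q := (Loc.map q (inclHom K L)).toRingHom

lemma locIncl_apply (x : Loc K q) : locIncl K L q x = Loc.map q (inclHom K L) x := rfl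

lemma locIncl_injective : Function.Injective (locIncl K L q) := Loc.map_injective q (inclHom K L)

/-- `Loc L q` as an algebra over `Loc K q`. -/
@[instance_reducible] noncomputable def algebraLoc : Algebra (Loc K q) (Loc L q) :=
  (locIncl K L q).toAlgebra

scoped[Fermat.Agent.CFT.C1] attribute [instance] Fermat.Agent.CFT.C1.LocRelative.algebraLoc

lemma algebraMap_eq_locIncl : algebraMap (Loc K q) (Loc L q) = locIncl K L q := rfl

lemma relRho_locIncl (σ : L ≃ₐ[K] L) (x : Loc K q) :
    relRho K L q σ (locIncl K L q x) = locIncl K L q x :=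
  Loc.aut_map_of_fixes q (inclHom K L) (galHom K L σ) (galHom_inclHom K L σ) x

variable [IsGalois K L]

/-- **Galois descent**: the invariants of `Gal(L/K)` on `Loc L q` are `Loc K q`. -/
theorem exists_locIncl_eq_of_fixed (b : Loc L q) (hb : ∀ σ : L ≃ₐ[K] L, relRho K L q σ b = b) :
    ∃ a : Loc K q, locIncl K L q a = b := by
  have := Loc.mem_range_map_of_fixed q (inclHom K L) (Set.range (galHom K L))
    (mem_range_inclHom_of_fixed K L) b (by rintro _ ⟨σ, rfl⟩; exact hb σ)
  obtain ⟨a, ha⟩ := this
  exact ⟨a, ha⟩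

theorem forall_relRho_eq_iff (b : Loc L q) :
    (∀ σ : L ≃ₐ[K] L, relRho K L q σ b = b) ↔ ∃ a : Loc K q, locIncl K L q a = b :=
  ⟨exists_locIncl_eq_of_fixed K L q b, by rintro ⟨a, rfl⟩ σ; exact relRho_locIncl K L q σ a⟩

section Places

variable [FiniteDimensional ℚ K] [FiniteDimensional ℚ L]

/-- The maximal ideal of `Loc K q` under a maximal ideal of `Loc L q`. -/
noncomputable def under (w : MaximalSpectrum (Loc L q)) : MaximalSpectrum (Loc K q) :=
  ⟨w.asIdeal.comap (locIncl K L q),
    haveI := w.isMaximal
    haveI : (w.asIdeal.comap (locIncl K L q)).IsPrime := Ideal.comap_isPrime _ _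
    IsArtinianRing.isMaximal_of_isPrime _⟩

omit [IsGalois K L] [FiniteDimensional ℚ L] in
lemma mem_under_iff (w : MaximalSpectrum (Loc L q)) (x : Loc K q) :
    x ∈ (under K L q w).asIdeal ↔ locIncl K L q x ∈ w.asIdeal := Iff.rfl

omit [IsGalois K L] [FiniteDimensional ℚ L] in
lemma under_placeSMul (σ : L ≃ₐ[K] L) (w : MaximalSpectrum (Loc L q)) :
    under K L q (placeSMul (relRho K L q) σ w) = under K L q w := by
  apply MaximalSpectrum.ext
  ext x
  rw [mem_under_iff, mem_under_iff, mem_placeSMul_iff]
  have : (relRho K L q σ).symm (locIncl K L q x) = locIncl K L q x := by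
    rw [RingEquiv.symm_apply_eq, relRho_locIncl]
  rw [this]

omit [FiniteDimensional ℚ L] in
/-- `Gal(L/K)` acts transitively on the maximal ideals of `Loc L q` over a given one of
`Loc K q`. -/
theorem exists_placeSMul_eq_of_under_eq [FiniteDimensional K L] {w w' : MaximalSpectrum (Loc L q)}
    (h : under K L q w = under K L q w') :
    ∃ σ : L ≃ₐ[K] L, placeSMul (relRho K L q) σ w = w' := by
  let A := ringAction (relRho K L q)
  have hcomm : @SMulCommClass (L ≃ₐ[K] L) (Loc K q) (Loc L q) A.toSMul _ := ⟨fun σ a b => by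
    change relRho K L q σ (locIncl K L q a * b) = locIncl K L q a * relRho K L q σ b
    rw [map_mul, relRho_locIncl]⟩
  have hinv : @Algebra.IsInvariant (Loc K q) (Loc L q) (L ≃ₐ[K] L) _ _ _ _ A :=
    @Algebra.IsInvariant.mk (Loc K q) (Loc L q) (L ≃ₐ[K] L) _ _ _ _ A
      (fun b hb => exists_locIncl_eq_of_fixed K L q b hb)
  have := w.isMaximal.isPrime
  have := w'.isMaximal.isPrime
  obtain ⟨σ, hσ⟩ := @Algebra.IsInvariant.exists_smul_of_under_eq (Loc K q) (Loc L q)
    (L ≃ₐ[K] L) _ _ _ _ A hinv _ hcomm w.asIdeal w'.asIdeal _ _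
    (congrArg MaximalSpectrum.asIdeal h)
  exact ⟨σ, MaximalSpectrum.ext hσ.symm⟩

omit [FiniteDimensional ℚ L] in
/-- Every maximal ideal of `Loc K q` lies under one of `Loc L q`. -/
theorem under_surjective [FiniteDimensional K L] : Function.Surjective (under K L q) := by
  intro v
  let A := ringAction (relRho K L q)
  have hinv : @Algebra.IsInvariant (Loc K q) (Loc L q) (L ≃ₐ[K] L) _ _ _ _ A :=
    @Algebra.IsInvariant.mk (Loc K q) (Loc L q) (L ≃ₐ[K] L) _ _ _ _ A
      (fun b hb => exists_locIncl_eq_of_fixed K L q b hb)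
  have : Algebra.IsIntegral (Loc K q) (Loc L q) :=
    @Algebra.IsInvariant.isIntegral (Loc K q) (Loc L q) (L ≃ₐ[K] L) _ _ _ _ A hinv _
  have := v.isMaximal
  obtain ⟨Q, hQ, hQv⟩ := Ideal.exists_ideal_over_maximal_of_isIntegral (S := Loc L q) v.asIdeal
    (by
      have h0 : RingHom.ker (algebraMap (Loc K q) (Loc L q)) = ⊥ :=
        (RingHom.injective_iff_ker_eq_bot _).1 (locIncl_injective K L q)
      rw [h0]
      exact bot_le)
  exact ⟨⟨Q, hQ⟩, MaximalSpectrum.ext hQv⟩

/-- A chosen maximal ideal of `Loc L q` over `v`. -/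
noncomputable def above [FiniteDimensional K L] (v : MaximalSpectrum (Loc K q)) :
    MaximalSpectrum (Loc L q) :=
  (under_surjective K L q v).choose

omit [FiniteDimensional ℚ L] in
@[simp] lemma under_above [FiniteDimensional K L] (v : MaximalSpectrum (Loc K q)) :
    under K L q (above K L q v) = v :=
  (under_surjective K L q v).choose_spec

omit [FiniteDimensional ℚ L] in
/-- The chosen places `above v` represent all orbits. -/
lemma above_surj [FiniteDimensional K L] (w : MaximalSpectrum (Loc L q)) :
    ∃ v, ∃ σ : L ≃ₐ[K] L, placeSMul (relRho K L q) σ (above K L q v) = w :=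
  ⟨under K L q w, exists_placeSMul_eq_of_under_eq K L q (under_above K L q _)⟩

omit [FiniteDimensional ℚ L] in
/-- The chosen places `above v` lie in distinct orbits. -/
lemma above_inj [FiniteDimensional K L] (v v' : MaximalSpectrum (Loc K q))
    (h : ∃ σ : L ≃ₐ[K] L, placeSMul (relRho K L q) σ (above K L q v) = above K L q v') : v = v' := by
  obtain ⟨σ, hσ⟩ := h
  have := congrArg (under K L q) hσ
  rwa [under_placeSMul, under_above, under_above] at this

end Places

/-! ### Changing the base field to one with the same image -/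

section SameRange

variable {K' F : Type*} [Field K'] [Field F] [Algebra K' F] (S : Subfield F)
  (hS : ∀ x : F, x ∈ S ↔ ∃ a : K', algebraMap K' F a = x)

/-- A field `K'` whose image in `F` is the subfield `S` is isomorphic to `S`. -/
noncomputable def baseEquiv : K' ≃+* S :=
  RingEquiv.ofBijective ((algebraMap K' F).codRestrict S.toSubring fun a => (hS _).2 ⟨a, rfl⟩)
    ⟨fun a b h => (algebraMap K' F).injective (congrArg Subtype.val h),
      fun s => by
        obtain ⟨a, ha⟩ := (hS s).1 s.2
        exact ⟨a, Subtype.ext ha⟩⟩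

lemma coe_baseEquiv (a : K') : ((baseEquiv S hS a : S) : F) = algebraMap K' F a := rfl

lemma algebraMap_baseEquiv_symm (s : S) : algebraMap K' F ((baseEquiv S hS).symm s) = s := by
  rw [← coe_baseEquiv S hS, RingEquiv.apply_symm_apply]

include hS in
theorem isGalois_of_range [Algebra.IsAlgebraic S F] [IsGalois S F] : IsGalois K' F :=
  IsGalois.of_equiv_equiv (F := S) (E := F) (M := K') (N := F) (f := (baseEquiv S hS).symm)
    (g := RingEquiv.refl F) (by
      ext s
      exact algebraMap_baseEquiv_symm S hS s)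

/-- The Galois groups over `S` and over `K'` coincide. -/
noncomputable def galEquivOfRange : (F ≃ₐ[S] F) ≃* (F ≃ₐ[K'] F) where
  toFun σ := AlgEquiv.ofRingEquiv (f := σ.toRingEquiv) fun a =>
    σ.commutes ⟨algebraMap K' F a, (hS _).2 ⟨a, rfl⟩⟩
  invFun τ := AlgEquiv.ofRingEquiv (f := τ.toRingEquiv) fun s => by
    obtain ⟨a, ha⟩ := (hS s).1 s.2
    change τ (s : F) = s
    rw [← ha]
    exact τ.commutes a
  left_inv σ := by ext x; rfl
  right_inv τ := by ext x; rfl
  map_mul' σ τ := by ext x; rfl

lemma galEquivOfRange_apply (σ : F ≃ₐ[S] F) (x : F) : galEquivOfRange S hS σ x = σ x := rfl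

end SameRange

/-! ### The local extension `L_w / K_v` -/

section Local

variable [FiniteDimensional ℚ K] [FiniteDimensional ℚ L] [FiniteDimensional K L]
  (w : MaximalSpectrum (Loc L q))

instance liesOver_under : w.asIdeal.LiesOver (under K L q w).asIdeal := ⟨rfl⟩

noncomputable example : Algebra (Lw q (under K L q w)) (Lw q w) := inferInstance

omit [IsGalois K L] [FiniteDimensional ℚ L] [FiniteDimensional K L] in
lemma algebraMap_mk (a : Loc K q) :
    algebraMap (Lw q (under K L q w)) (Lw q w) (Ideal.Quotient.mk _ a) =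
      Ideal.Quotient.mk _ (locIncl K L q a) := rfl

instance isScalarTower_Lw : IsScalarTower ℚ_[(q : ℕ)] (Lw q (under K L q w)) (Lw q w) :=
  IsScalarTower.of_algebraMap_eq (R := ℚ_[(q : ℕ)]) (S := Lw q (under K L q w)) (A := Lw q w)
    fun c => by
      change Ideal.Quotient.mk w.asIdeal (inclQ L q c) =
        Ideal.Quotient.mk w.asIdeal (locIncl K L q (inclQ K q c))
      rw [locIncl_apply, Loc.map_inclQ]

/-- The fixed field of the decomposition group of `w` is the image of `K_v`, `v = under w`. -/
theorem mem_Kv_iff (x : Lw q w) :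
    x ∈ Kv (galHom K L) q w ↔
      ∃ a : Lw q (under K L q w), algebraMap (Lw q (under K L q w)) (Lw q w) a = x := by
  have hcard : Nat.card (decomp (relRho K L q) w) ≠ 0 := Nat.card_pos.ne'
  rw [mem_fixedField_iff_exists_invariant (relRho K L q) w (isUnit_natCast q hcard) x]
  constructor
  · rintro ⟨b, hb, rfl⟩
    obtain ⟨a, rfl⟩ := exists_locIncl_eq_of_fixed K L q b hb
    exact ⟨Ideal.Quotient.mk _ a, rfl⟩
  · rintro ⟨a, rfl⟩
    obtain ⟨a, rfl⟩ := Ideal.Quotient.mk_surjective a
    exact ⟨locIncl K L q a, fun σ => relRho_locIncl K L q σ a, rfl⟩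

instance isGalois_Lw : IsGalois (Lw q (under K L q w)) (Lw q w) :=
  isGalois_of_range (Kv (galHom K L) q w) (mem_Kv_iff K L q w)

instance finiteDimensional_Lw : FiniteDimensional (Lw q (under K L q w)) (Lw q w) :=
  Module.Finite.of_restrictScalars_finite ℚ_[(q : ℕ)] _ _

/-- The decomposition group of `w` is `Gal(L_w/K_v)`. -/
noncomputable def decompEquivRel :
    decomp (relRho K L q) w ≃* ((Lw q w) ≃ₐ[Lw q (under K L q w)] (Lw q w)) :=
  (decompEquivGal (galHom K L) q w (galHom_injective K L)).trans
    (galEquivOfRange (Kv (galHom K L) q w) (mem_Kv_iff K L q w))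

lemma decompEquivRel_apply (h : decomp (relRho K L q) w) (x : Lw q w) :
    decompEquivRel K L q w h x = quotAut (relRho K L q) w h x := rfl

/-- The cohomology of the decomposition group on `L_wˣ` is the Galois cohomology of `L_w/K_v`. -/
noncomputable def relUnitsCohomologyIso (n : ℕ) :
    groupCohomology (localUnitsRep (relRho K L q) w) n ≅
      groupCohomology (Rep.ofAlgebraAutOnUnits (Lw q (under K L q w)) (Lw q w)) n :=
  groupCohomology.mapIso (A := Rep.ofAlgebraAutOnUnits (Lw q (under K L q w)) (Lw q w))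
    (B := localUnitsRep (relRho K L q) w) (decompEquivRel K L q w)
    (LinearEquiv.refl ℤ (localUnitsRep (relRho K L q) w).V)
    (fun g => by
      refine LinearMap.ext fun m => ?_
      apply congrArg Additive.ofMul
      exact Units.ext rfl) n

lemma card_decomp_eq_finrank_rel :
    Nat.card (decomp (relRho K L q) w) = Module.finrank (Lw q (under K L q w)) (Lw q w) := by
  rw [Nat.card_congr (decompEquivRel K L q w).toEquiv, IsGalois.card_aut_eq_finrank]

end Local

section Main

variable [FiniteDimensional ℚ K] [FiniteDimensional ℚ L] [FiniteDimensional K L]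

/-- **Semilocal Shapiro for `(L ⊗ ℚ_q)ˣ`, relative Galois form**:
`Hⁿ(Gal(L/K), (L ⊗ ℚ_q)ˣ) ≃ ∏_{v | q} Hⁿ(Gal(L_w/K_v), L_wˣ)`, `v` running over the maximal ideals
of `K ⊗ ℚ_q` and `w = above v` a chosen maximal ideal of `L ⊗ ℚ_q` over `v`. -/
theorem bijective_relRes (n : ℕ) :
    Function.Bijective (fun (c : groupCohomology (locUnitsRep (galHom K L) q) n)
        (v : MaximalSpectrum (Loc K q)) =>
      (relUnitsCohomologyIso K L q (above K L q v) n).hom.hom
        ((groupCohomology.map (decomp (relRho K L q) (above K L q v)).subtype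
          (localRes (relRho K L q) (above K L q v)) n).hom c)) := by
  have h1 := bijective_localRes (relRho K L q) (above K L q) (above_surj K L q)
    (above_inj K L q) n
  have h2 : Function.Bijective
      (fun (d : ∀ v, groupCohomology (localUnitsRep (relRho K L q) (above K L q v)) n)
        (v : MaximalSpectrum (Loc K q)) =>
      (relUnitsCohomologyIso K L q (above K L q v) n).hom.hom (d v)) := by
    constructor
    · intro d d' h
      funext v
      have := congrFun h v
      exact ((CategoryTheory.ConcreteCategory.bijective_of_isIso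
        (relUnitsCohomologyIso K L q (above K L q v) n).hom).1 this)
    · intro e
      refine ⟨fun v => (relUnitsCohomologyIso K L q (above K L q v) n).inv.hom (e v), ?_⟩
      funext v
      exact congrArg (fun f => f.hom (e v))
        (relUnitsCohomologyIso K L q (above K L q v) n).inv_hom_id
  exact h2.comp h1

omit [IsGalois K L] [FiniteDimensional ℚ K] in
/-- **Semilocal Hilbert 90, relative form**. -/
theorem subsingleton_H1_rel :
    Subsingleton (groupCohomology (locUnitsRep (galHom K L) q) 1) :=
  subsingleton_H1_locUnitsRep (galHom K L) q (galHom_injective K L)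

end Main

end Fermat.Agent.CFT.C1.LocRelative
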