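import Fermat.Agent.CFT.C1.SemilocalHom

/-!
# The local Galois group at a maximal ideal of a semilocal ring with group action

`B` commutative ring, `ρ : G →* RingAut B` with `G` finite, `𝔪` a maximal ideal, `F = B ⧸ 𝔪` its
residue field, `H = decomp ρ 𝔪` the decomposition group acting on `F`.  If `H` acts faithfully on
`F`, then `F` is Galois over the fixed field `Kv` of `H` with `H ≃* Gal(F/Kv)`, and
`Hⁿ(H, Fˣ) ≅ Hⁿ(Gal(F/Kv), Fˣ)`.  If moreover `B` is reduced Artinian and `#H` is invertible in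
`B`, the fixed field `Kv` is the image of the invariant ring `B^G`.
-/

namespace Fermat.Agent.CFT.C1.LocalGalois

open Fermat.Agent.CFT.C1.SemilocalHom Fermat.Agent.CFT.C1.Semilocal
open CategoryTheory

variable {G B : Type} [Group G] [CommRing B] (ρ : G →* RingAut B) (𝔪 : MaximalSpectrum B)

/-- The field structure on the residue ring at a maximal ideal. -/
@[instance_reducible] noncomputable def residueField : Field (B ⧸ 𝔪.asIdeal) :=
  haveI := 𝔪.isMaximal
  Ideal.Quotient.field 𝔪.asIdeal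

scoped[Fermat.Agent.CFT.C1] attribute [instance] Fermat.Agent.CFT.C1.LocalGalois.residueField

open scoped Fermat.Agent.CFT.C1

/-- The action of the decomposition group on the residue field. -/
@[reducible] noncomputable def resAction : MulSemiringAction (decomp ρ 𝔪) (B ⧸ 𝔪.asIdeal) :=
  ringAction (quotAut ρ 𝔪)

/-- The fixed field of the decomposition group in the residue field (`= K_v`). -/
noncomputable def fixedField : Subfield (B ⧸ 𝔪.asIdeal) :=
  letI := resAction ρ 𝔪
  FixedPoints.subfield (decomp ρ 𝔪) (B ⧸ 𝔪.asIdeal)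

lemma mem_fixedField_iff (x : B ⧸ 𝔪.asIdeal) :
    x ∈ fixedField ρ 𝔪 ↔ ∀ h : decomp ρ 𝔪, quotAut ρ 𝔪 h x = x := Iff.rfl

variable [Finite G]

/-- The residue field is Galois over the fixed field of the decomposition group (Artin). -/
theorem isGalois_fixedField : IsGalois (fixedField ρ 𝔪) (B ⧸ 𝔪.asIdeal) :=
  letI := resAction ρ 𝔪
  IsGalois.of_fixed_field (B ⧸ 𝔪.asIdeal) (decomp ρ 𝔪)

theorem finiteDimensional_fixedField : FiniteDimensional (fixedField ρ 𝔪) (B ⧸ 𝔪.asIdeal) :=
  letI := resAction ρ 𝔪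
  inferInstanceAs (FiniteDimensional (FixedPoints.subfield (decomp ρ 𝔪) (B ⧸ 𝔪.asIdeal)) _)

variable (hfaith : ∀ h : decomp ρ 𝔪, (∀ x : B ⧸ 𝔪.asIdeal, quotAut ρ 𝔪 h x = x) → h = 1)

omit [Finite G] in
include hfaith in
lemma faithful_resAction :
    letI := resAction ρ 𝔪
    FaithfulSMul (decomp ρ 𝔪) (B ⧸ 𝔪.asIdeal) := by
  let _ := resAction ρ 𝔪
  refine ⟨fun {h₁ h₂} h => ?_⟩
  have h1 : h₂⁻¹ * h₁ = 1 := by
    apply hfaith
    intro x
    have := h x
    change quotAut ρ 𝔪 h₁ x = quotAut ρ 𝔪 h₂ x at this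
    rw [map_mul, map_inv, RingAut.mul_apply, this]
    exact (quotAut ρ 𝔪 h₂).symm_apply_apply x
  rw [inv_mul_eq_one] at h1
  exact h1.symm

/-- The decomposition group is the Galois group of the residue field over its fixed field. -/
noncomputable def decompEquiv :
    decomp ρ 𝔪 ≃* ((B ⧸ 𝔪.asIdeal) ≃ₐ[fixedField ρ 𝔪] (B ⧸ 𝔪.asIdeal)) :=
  letI := resAction ρ 𝔪
  haveI := faithful_resAction ρ 𝔪 hfaith
  FixedPoints.toAlgAutMulEquiv (decomp ρ 𝔪) (B ⧸ 𝔪.asIdeal)

lemma decompEquiv_apply (h : decomp ρ 𝔪) (x : B ⧸ 𝔪.asIdeal) :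
    decompEquiv ρ 𝔪 hfaith h x = quotAut ρ 𝔪 h x := rfl

/-- The cohomology of the decomposition group acting on the units of the residue field is the
Galois cohomology of the residue field over its fixed field. -/
noncomputable def localUnitsCohomologyIso (n : ℕ) :
    groupCohomology (localUnitsRep ρ 𝔪) n ≅
      groupCohomology (Rep.ofAlgebraAutOnUnits (fixedField ρ 𝔪) (B ⧸ 𝔪.asIdeal)) n :=
  groupCohomology.mapIso (A := Rep.ofAlgebraAutOnUnits (fixedField ρ 𝔪) (B ⧸ 𝔪.asIdeal))
    (B := localUnitsRep ρ 𝔪) (decompEquiv ρ 𝔪 hfaith)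
    (LinearEquiv.refl ℤ (Additive (B ⧸ 𝔪.asIdeal)ˣ))
    (fun g => by
      refine LinearMap.ext fun m => ?_
      apply congrArg Additive.ofMul
      exact Units.ext rfl) n

section Trace

variable [IsArtinianRing B] [IsReduced B]

omit [Finite G] in
lemma ρ_primIdem (g : G) (𝔪' : MaximalSpectrum B) :
    ρ g (primIdem 𝔪') = primIdem (placeSMul ρ g 𝔪') := by
  let _ := ringAction ρ
  exact smul_primIdem g 𝔪'

/-- **The fixed field of the decomposition group is the image of the invariants** (`K_v` is the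
image of `B^G`, e.g. of `K ⊗ ℚ_q`), provided the order of the decomposition group is invertible
in `B`. -/
theorem mem_fixedField_iff_exists_invariant
    (hinv : IsUnit ((Nat.card (decomp ρ 𝔪) : ℕ) : B)) (x : B ⧸ 𝔪.asIdeal) :
    x ∈ fixedField ρ 𝔪 ↔
      ∃ b : B, (∀ g : G, ρ g b = b) ∧ Ideal.Quotient.mk 𝔪.asIdeal b = x := by
  classical
  constructor
  · intro hx
    rw [mem_fixedField_iff] at hx
    have := Fintype.ofFinite G
    obtain ⟨b, rfl⟩ := Ideal.Quotient.mk_surjective x
    obtain ⟨u, hu⟩ := hinv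
    -- the inverse of `#H` is invariant
    have hu_inv : ∀ g : G, ρ g (↑u⁻¹ : B) = ↑u⁻¹ := by
      intro g
      have h1 : ρ g (u : B) = u := by rw [hu, map_natCast]
      have h2 : ρ g (↑u⁻¹ : B) * (u : B) = 1 := by
        rw [← h1, ← map_mul, Units.inv_mul, map_one]
      calc ρ g (↑u⁻¹ : B) = ρ g (↑u⁻¹ : B) * ((u : B) * ↑u⁻¹) := by rw [Units.mul_inv, mul_one]
        _ = ↑u⁻¹ := by rw [← mul_assoc, h2, one_mul]
    set b' : B := b * primIdem 𝔪 with hb'
    set c : B := ∑ g : G, ρ g b' with hc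
    have hc_inv : ∀ g : G, ρ g c = c := by
      intro g
      rw [hc, map_sum]
      refine Fintype.sum_bijective (fun g' => g * g') (Group.mulLeft_bijective g) _ _ ?_
      intro g'
      rw [show ρ (g * g') = ρ g * ρ g' from map_mul ρ g g']; rfl
    -- reduction of the summands
    have hterm : ∀ g : G, Ideal.Quotient.mk 𝔪.asIdeal (ρ g b') =
        if g ∈ decomp ρ 𝔪 then Ideal.Quotient.mk 𝔪.asIdeal b else 0 := by
      intro g
      rw [hb', map_mul, ρ_primIdem, map_mul]
      split_ifs with hg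
      · have h1 : placeSMul ρ g 𝔪 = 𝔪 := (mem_decomp_iff ρ g 𝔪).1 hg
        rw [h1, mk_primIdem_self, mul_one]
        exact hx ⟨g, hg⟩
      · have h1 : placeSMul ρ g 𝔪 ≠ 𝔪 := fun h => hg ((mem_decomp_iff ρ g 𝔪).2 h)
        rw [mk_primIdem_of_ne (Ne.symm h1), mul_zero]
    have hmk : Ideal.Quotient.mk 𝔪.asIdeal c =
        ((Nat.card (decomp ρ 𝔪) : ℕ) : B ⧸ 𝔪.asIdeal) * Ideal.Quotient.mk 𝔪.asIdeal b := by
      rw [hc, map_sum]
      simp only [hterm]
      rw [Finset.sum_ite, Finset.sum_const, Finset.sum_const_zero, add_zero, nsmul_eq_mul]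
      congr 2
      rw [Nat.card_eq_fintype_card, Fintype.card_subtype]
    refine ⟨c * ↑u⁻¹, fun g => by rw [map_mul, hc_inv, hu_inv], ?_⟩
    rw [map_mul, hmk]
    have h3 : ((Nat.card (decomp ρ 𝔪) : ℕ) : B ⧸ 𝔪.asIdeal) =
        Ideal.Quotient.mk 𝔪.asIdeal (u : B) := by rw [hu, map_natCast]
    rw [h3, mul_comm (Ideal.Quotient.mk 𝔪.asIdeal (u : B)), mul_assoc, ← map_mul,
      Units.mul_inv, map_one, mul_one]
  · rintro ⟨b, hb, rfl⟩
    rw [mem_fixedField_iff]
    intro h
    rw [quotAut_mk, hb]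

end Trace

section Product

variable [IsArtinianRing B] [IsReduced B] [Fintype (MaximalSpectrum B)]
  {ι : Type*} [Fintype ι] (r : ι → MaximalSpectrum B)
  (hr_surj : ∀ 𝔪, ∃ i, ∃ g : G, placeSMul ρ g (r i) = 𝔪)
  (hr_inj : ∀ i j, (∃ g : G, placeSMul ρ g (r i) = r j) → i = j)
  (hfaithr : ∀ i, ∀ h : decomp ρ (r i),
    (∀ x : B ⧸ (r i).asIdeal, quotAut ρ (r i) h x = x) → h = 1)

include hr_surj hr_inj in
/-- **Semilocal Shapiro in Galois form**: `Hⁿ(G, Bˣ) ≃ ∏ i, Hⁿ(Gal(F_i/K_i), F_iˣ)` where `F_i` is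
the residue field at the orbit representative `r i` and `K_i` the fixed field of the decomposition
group. -/
theorem bijective_galoisRes (n : ℕ) :
    Function.Bijective (fun (c : groupCohomology (unitsRep ρ) n) (i : ι) =>
      (localUnitsCohomologyIso ρ (r i) (hfaithr i) n).hom.hom
        ((groupCohomology.map (decomp ρ (r i)).subtype (localRes ρ (r i)) n).hom c)) := by
  have h1 := bijective_localRes ρ r hr_surj hr_inj n
  have h2 : Function.Bijective (fun (d : ∀ i, groupCohomology (localUnitsRep ρ (r i)) n) (i : ι) =>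
      (localUnitsCohomologyIso ρ (r i) (hfaithr i) n).hom.hom (d i)) := by
    constructor
    · intro d d' h
      funext i
      have := congrFun h i
      exact ((ConcreteCategory.bijective_of_isIso
        (localUnitsCohomologyIso ρ (r i) (hfaithr i) n).hom).1 this)
    · intro e
      refine ⟨fun i => (localUnitsCohomologyIso ρ (r i) (hfaithr i) n).inv.hom (e i), ?_⟩
      funext i
      exact congrArg (fun f => f.hom (e i))
        (localUnitsCohomologyIso ρ (r i) (hfaithr i) n).inv_hom_id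
  exact h2.comp h1

include hr_surj hr_inj hfaithr in
/-- **Semilocal Hilbert 90**: `H¹(G, Bˣ) = 0` when the decomposition groups act faithfully on the
residue fields. -/
theorem subsingleton_H1_unitsRep : Subsingleton (groupCohomology (unitsRep ρ) 1) := by
  have h := (bijective_galoisRes ρ r hr_surj hr_inj hfaithr 1).1
  have : ∀ i, Subsingleton (groupCohomology
      (Rep.ofAlgebraAutOnUnits (fixedField ρ (r i)) (B ⧸ (r i).asIdeal)) 1) := fun i =>
    haveI := finiteDimensional_fixedField ρ (r i)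
    (inferInstance : Subsingleton (groupCohomology.H1
      (Rep.ofAlgebraAutOnUnits (fixedField ρ (r i)) (B ⧸ (r i).asIdeal))))
  exact h.subsingleton

end Product

end Fermat.Agent.CFT.C1.LocalGalois
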