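import Fermat.Agent.CFT.C1.ShapiroExplicit

/-!
# Semilocal Shapiro for non-transitive systems (orbit decomposition)

For an imprimitivity system `S` on `M` indexed by a finite `G`-set `X` (not necessarily
transitive) and a family `r : ι → X` of orbit representatives, the map
`Hⁿ(G, M) → ∏ i, Hⁿ(G_{r i}, block (r i))`, `c ↦ (res then proj (r i))_i`, is bijective.
-/

namespace Fermat.Agent.CFT.C1

open CategoryTheory Rep groupCohomology
open Fermat.Agent.CFT.A1.ShapiroMap

universe u

section Additivity

variable {k G H : Type u} [CommRing k] [Group G] [Group H]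

theorem map_id_add {A B : Rep.{u} k G} (f g : A ⟶ B) (n : ℕ) :
    groupCohomology.map (MonoidHom.id G) (f + g) n =
      groupCohomology.map (MonoidHom.id G) f n + groupCohomology.map (MonoidHom.id G) g n := by
  have h : cochainsMap (MonoidHom.id G) (f + g) =
      cochainsMap (MonoidHom.id G) f + cochainsMap (MonoidHom.id G) g :=
    (cochainsFunctor k G).map_add
  rw [groupCohomology.map, h, HomologicalComplex.homologyMap_add]
  rfl

theorem map_zero' {A : Rep.{u} k H} {B : Rep.{u} k G} (f : G →* H) (n : ℕ) :
    groupCohomology.map (A := A) (B := B) f 0 n = 0 := by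
  rw [groupCohomology.map, cochainsMap_zero, HomologicalComplex.homologyMap_zero]
  rfl

theorem map_id_sum {A B : Rep.{u} k G} {ι : Type*} (s : Finset ι) (f : ι → (A ⟶ B)) (n : ℕ) :
    groupCohomology.map (MonoidHom.id G) (∑ i ∈ s, f i) n =
      ∑ i ∈ s, groupCohomology.map (MonoidHom.id G) (f i) n := by
  classical
  induction s using Finset.induction_on with
  | empty => simp [map_zero']
  | insert a s ha ih => rw [Finset.sum_insert ha, Finset.sum_insert ha, map_id_add, ih]

end Additivity

namespace ImprimitivitySystem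

variable {k G : Type u} [CommRing k] [Group G] {M : Rep.{u} k G}
  {X : Type*} [MulAction G X] [Fintype X] (S : ImprimitivitySystem M X) (x0 : X)

open Classical in
/-- The sum of the projections over the orbit of `x0`, as a linear endomorphism. -/
noncomputable def orbitProjLin : M.V →ₗ[k] M.V :=
  ∑ x ∈ Finset.univ.filter (fun x => x ∈ MulAction.orbit G x0), S.π x

open Classical in
lemma orbitProjLin_apply (m : M.V) :
    S.orbitProjLin x0 m =
      ∑ x ∈ Finset.univ.filter (fun x => x ∈ MulAction.orbit G x0), S.π x m := by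
  simp [orbitProjLin, LinearMap.sum_apply]

open Classical in
lemma π_orbitProjLin (x : X) (m : M.V) :
    S.π x (S.orbitProjLin x0 m) = if x ∈ MulAction.orbit G x0 then S.π x m else 0 := by
  rw [orbitProjLin_apply, map_sum]
  split_ifs with hx
  · rw [Finset.sum_eq_single x]
    · exact S.idem x m
    · intro y _ hyx
      exact S.ortho x y (Ne.symm hyx) m
    · intro h
      exact absurd (Finset.mem_filter.2 ⟨Finset.mem_univ x, hx⟩) h
  · refine Finset.sum_eq_zero fun y hy => ?_
    have hy' := (Finset.mem_filter.1 hy).2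
    exact S.ortho x y (fun h => hx (h ▸ hy')) m

open Classical in
lemma ρ_orbitProjLin (g : G) (m : M.V) :
    M.ρ g (S.orbitProjLin x0 m) = S.orbitProjLin x0 (M.ρ g m) := by
  rw [orbitProjLin_apply, orbitProjLin_apply, map_sum]
  simp only [S.equivariant]
  refine Finset.sum_bij (fun x _ => g • x) ?_ ?_ ?_ ?_
  · intro x hx
    have hx' := (Finset.mem_filter.1 hx).2
    exact Finset.mem_filter.2 ⟨Finset.mem_univ _, MulAction.mem_orbit_of_mem_orbit g hx'⟩
  · intro x _ y _ h
    exact MulAction.injective g h
  · intro y hy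
    have hy' := (Finset.mem_filter.1 hy).2
    refine ⟨g⁻¹ • y, Finset.mem_filter.2 ⟨Finset.mem_univ _,
      MulAction.mem_orbit_of_mem_orbit g⁻¹ hy'⟩, by simp⟩
  · intro x _
    rfl

/-- The equivariant idempotent endomorphism of `M` cutting out the orbit of `x0`. -/
noncomputable def orbitProj : M ⟶ M :=
  Rep.ofHom ⟨S.orbitProjLin x0, fun g => by
    refine LinearMap.ext fun m => ?_
    exact (S.ρ_orbitProjLin x0 g m).symm⟩

lemma orbitProj_hom_apply (m : M.V) : (S.orbitProj x0).hom m = S.orbitProjLin x0 m := rfl

lemma toCoind_orbitProj (m : M.V) :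
    (S.toCoind x0).hom (S.orbitProjLin x0 m) = (S.toCoind x0).hom m := by
  apply Subtype.ext
  funext g
  apply Subtype.ext
  rw [toCoind_hom_apply_coe, toCoind_hom_apply_coe, ρ_orbitProjLin, π_orbitProjLin,
    if_pos (MulAction.mem_orbit_self x0)]

open Classical in
lemma orbitProjLin_eq_zero_of_toCoind_eq_zero {m : M.V} (hm : (S.toCoind x0).hom m = 0) :
    S.orbitProjLin x0 m = 0 := by
  have h0 : ∀ g : G, S.π x0 (M.ρ g m) = 0 := by
    intro g
    rw [← S.toCoind_hom_apply_coe x0 m g, hm]
    rfl
  rw [orbitProjLin_apply]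
  refine Finset.sum_eq_zero fun x hx => ?_
  obtain ⟨g, hg⟩ := (Finset.mem_filter.1 hx).2
  -- `g • x0 = x`
  have h1 := S.equivariant g⁻¹ x m
  have hx0 : g⁻¹ • x = x0 := by rw [← hg]; simp
  rw [hx0, h0 g⁻¹] at h1
  have h2 := congrArg (M.ρ g) h1
  simpa using h2

open Classical in
lemma toCoind_surjective_orbit : Function.Surjective (S.toCoind x0).hom := by
  intro f
  have hex : ∀ x : X, ∃ g : G, x ∈ MulAction.orbit G x0 → g • x = x0 := by
    intro x
    by_cases hx : x ∈ MulAction.orbit G x0
    · obtain ⟨g, hg⟩ := hx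
      exact ⟨g⁻¹, fun _ => by rw [← hg]; simp⟩
    · exact ⟨1, fun h => absurd h hx⟩
  choose γ hγ using hex
  refine ⟨∑ x ∈ Finset.univ.filter (fun x => x ∈ MulAction.orbit G x0),
    M.ρ (γ x)⁻¹ ((f.1 (γ x) : S.block x0) : M.V), ?_⟩
  apply Subtype.ext
  funext g
  apply Subtype.ext
  rw [toCoind_hom_apply_coe, map_sum, map_sum]
  set y : X := g⁻¹ • x0 with hy
  have hgy : g • y = x0 := by simp [hy]
  have hyO : y ∈ MulAction.orbit G x0 := ⟨g⁻¹, rfl⟩
  have hρ : ∀ (a b : G) (m : M.V), M.ρ a (M.ρ b m) = M.ρ (a * b) m := fun a b m => by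
    rw [map_mul]; rfl
  rw [Finset.sum_eq_single y]
  · have hmem : g * (γ y)⁻¹ ∈ MulAction.stabilizer G x0 := by
      rw [MulAction.mem_stabilizer_iff, mul_smul]
      have : (γ y)⁻¹ • x0 = y := by rw [← hγ y hyO]; simp
      rw [this, hgy]
    have hf := f.2 ⟨g * (γ y)⁻¹, hmem⟩ (γ y)
    simp only [Subgroup.subtype_apply, inv_mul_cancel_right] at hf
    have hf' : ((f.1 g : S.block x0) : M.V) =
        M.ρ (g * (γ y)⁻¹) ((f.1 (γ y) : S.block x0) : M.V) := by
      rw [hf]; rfl
    rw [hρ, ← hf']
    exact (S.mem_block_iff).1 (f.1 g).2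
  · intro x hx hxy
    have hxO := (Finset.mem_filter.1 hx).2
    have hv : S.π x0 ((f.1 (γ x) : S.block x0) : M.V) = ((f.1 (γ x) : S.block x0) : M.V) :=
      (S.mem_block_iff).1 (f.1 (γ x)).2
    rw [hρ, ← hv, S.equivariant]
    apply S.ortho
    intro h
    apply hxy
    have : (γ x)⁻¹ • x0 = x := by rw [← hγ x hxO]; simp
    rw [mul_smul, this] at h
    rw [hy, h]; simp
  · intro h
    exact absurd (Finset.mem_filter.2 ⟨Finset.mem_univ y, hyO⟩) h

/-- The underlying linear map of the section `coind_H^G (block x0) ⟶ M` of `toCoind x0`. -/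
noncomputable def fromCoindLin :
    (Rep.coind (MulAction.stabilizer G x0).subtype (S.stabRep x0)).V →ₗ[k] M.V :=
  ((LinearMap.ker (S.toCoind x0).hom.toLinearMap).liftQ (S.orbitProjLin x0)
      (fun _ hm => S.orbitProjLin_eq_zero_of_toCoind_eq_zero x0 hm)).comp
    ((S.toCoind x0).hom.toLinearMap.quotKerEquivOfSurjective
      (S.toCoind_surjective_orbit x0)).symm.toLinearMap

lemma fromCoindLin_toCoind (m : M.V) :
    S.fromCoindLin x0 ((S.toCoind x0).hom m) = S.orbitProjLin x0 m := by
  have h : ((S.toCoind x0).hom.toLinearMap.quotKerEquivOfSurjective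
      (S.toCoind_surjective_orbit x0)).symm ((S.toCoind x0).hom m) =
      Submodule.Quotient.mk m := by
    rw [LinearEquiv.symm_apply_eq]
    rfl
  simp only [fromCoindLin, LinearMap.coe_comp, LinearEquiv.coe_coe, Function.comp_apply]
  rw [h]
  rfl

/-- The equivariant section `coind_H^G (block x0) ⟶ M` of `toCoind x0`, with image the part of
`M` supported on the orbit of `x0`. -/
noncomputable def fromCoind :
    Rep.coind (MulAction.stabilizer G x0).subtype (S.stabRep x0) ⟶ M :=
  Rep.ofHom ⟨S.fromCoindLin x0, fun g => by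
    refine LinearMap.ext fun c => ?_
    obtain ⟨m, rfl⟩ := S.toCoind_surjective_orbit x0 c
    have h1 : (Rep.coind (MulAction.stabilizer G x0).subtype (S.stabRep x0)).ρ g
        ((S.toCoind x0).hom m) = (S.toCoind x0).hom (M.ρ g m) :=
      (Rep.hom_comm_apply (S.toCoind x0) g m).symm
    change S.fromCoindLin x0 ((Rep.coind (MulAction.stabilizer G x0).subtype (S.stabRep x0)).ρ g
        ((S.toCoind x0).hom m)) = M.ρ g (S.fromCoindLin x0 ((S.toCoind x0).hom m))
    rw [h1, fromCoindLin_toCoind, fromCoindLin_toCoind, ρ_orbitProjLin]⟩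

lemma toCoind_comp_fromCoind : S.toCoind x0 ≫ S.fromCoind x0 = S.orbitProj x0 := by
  apply Rep.hom_ext
  apply Representation.IntertwiningMap.ext
  refine LinearMap.ext fun m => ?_
  exact S.fromCoindLin_toCoind x0 m

lemma fromCoind_comp_toCoind : S.fromCoind x0 ≫ S.toCoind x0 = 𝟙 _ := by
  apply Rep.hom_ext
  apply Representation.IntertwiningMap.ext
  refine LinearMap.ext fun c => ?_
  obtain ⟨m, rfl⟩ := S.toCoind_surjective_orbit x0 c
  change (S.toCoind x0).hom (S.fromCoindLin x0 ((S.toCoind x0).hom m)) = (S.toCoind x0).hom m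
  rw [fromCoindLin_toCoind, toCoind_orbitProj]

section Reps

variable {ι : Type*} [Fintype ι] (r : ι → X)
  (hr_surj : ∀ x, ∃ i, x ∈ MulAction.orbit G (r i))
  (hr_inj : ∀ i j, r j ∈ MulAction.orbit G (r i) → i = j)

include hr_surj hr_inj in
open Classical in
lemma sum_orbitProjLin (m : M.V) : ∑ i, S.orbitProjLin (r i) m = m := by
  choose idx hidx using hr_surj
  have huniq : ∀ x i, x ∈ MulAction.orbit G (r i) ↔ idx x = i := by
    intro x i
    constructor
    · intro hx
      -- `x ∈ orbit (r i)` and `x ∈ orbit (r (idx x))` so `r i ∈ orbit (r (idx x))`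
      have h1 : MulAction.orbit G x = MulAction.orbit G (r i) := MulAction.orbit_eq_iff.2 hx
      have h2 : MulAction.orbit G x = MulAction.orbit G (r (idx x)) :=
        MulAction.orbit_eq_iff.2 (hidx x)
      have h3 : r i ∈ MulAction.orbit G (r (idx x)) := by
        rw [← h2, h1]; exact MulAction.mem_orbit_self _
      exact hr_inj _ _ h3
    · rintro rfl
      exact hidx x
  simp only [orbitProjLin_apply]
  have : ∀ i, (Finset.univ.filter (fun x => x ∈ MulAction.orbit G (r i))) =
      Finset.univ.filter (fun x => idx x = i) := by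
    intro i
    ext x
    simp [huniq]
  simp only [this]
  have key := Finset.sum_fiberwise (Finset.univ : Finset X) idx (fun x => S.π x m)
  rw [S.complete m] at key
  convert key using 3

include hr_surj hr_inj in
lemma sum_orbitProj : ∑ i, S.orbitProj (r i) = 𝟙 M := by
  apply Rep.hom_ext
  apply Representation.IntertwiningMap.ext
  refine LinearMap.ext fun m => ?_
  rw [Rep.sum_hom]
  change (∑ i, (S.orbitProj (r i)).hom).toLinearMap m = m
  have : (∑ i, (S.orbitProj (r i)).hom).toLinearMap m = ∑ i, S.orbitProjLin (r i) m := by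
    classical
    induction (Finset.univ : Finset ι) using Finset.induction_on with
    | empty => simp
    | insert a s ha ih =>
      rw [Finset.sum_insert ha, Finset.sum_insert ha, ← ih]
      rfl
  rw [this]
  exact S.sum_orbitProjLin r hr_surj hr_inj m

omit [Fintype ι] in
include hr_inj in
open Classical in
lemma res_orbitProj_comp_proj (i j : ι) :
    (resFunctor (MulAction.stabilizer G (r i)).subtype).map (S.orbitProj (r j)) ≫ S.proj (r i) =
      if i = j then S.proj (r i) else 0 := by
  apply Rep.hom_ext
  apply Representation.IntertwiningMap.ext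
  refine LinearMap.ext fun m => ?_
  apply Subtype.ext
  change S.π (r i) (S.orbitProjLin (r j) m) = _
  rw [π_orbitProjLin]
  by_cases hij : i = j
  · subst hij
    rw [if_pos (MulAction.mem_orbit_self _), if_pos rfl]
    rfl
  · rw [if_neg (fun h => hij (hr_inj j i h).symm), if_neg hij]
    rfl

end Reps

section Cohomology

/-- The map `Hⁿ(G, M) ⟶ Hⁿ(G_x, block x)`: restriction to the stabiliser of `x` followed by the
projection onto the block at `x`. -/
noncomputable abbrev resProjMap (x : X) (n : ℕ) :
    groupCohomology M n ⟶ groupCohomology (S.stabRep x) n :=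
  groupCohomology.map (MulAction.stabilizer G x).subtype (S.proj x) n

lemma map_toCoind_comp_map_fromCoind (n : ℕ) :
    groupCohomology.map (MonoidHom.id G) (S.toCoind x0) n ≫
      groupCohomology.map (MonoidHom.id G) (S.fromCoind x0) n =
    groupCohomology.map (MonoidHom.id G) (S.orbitProj x0) n := by
  rw [← groupCohomology.map_id_comp, toCoind_comp_fromCoind]

lemma map_fromCoind_comp_map_toCoind (n : ℕ) :
    groupCohomology.map (MonoidHom.id G) (S.fromCoind x0) n ≫
      groupCohomology.map (MonoidHom.id G) (S.toCoind x0) n = 𝟙 _ := by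
  rw [← groupCohomology.map_id_comp, fromCoind_comp_toCoind, groupCohomology.map_id]

lemma resProjMap_eq (n : ℕ) :
    S.resProjMap x0 n = groupCohomology.map (MonoidHom.id G) (S.toCoind x0) n ≫
      groupCohomology.map (MulAction.stabilizer G x0).subtype
        (ev1 (MulAction.stabilizer G x0) (S.stabRep x0)) n :=
  S.map_proj_eq x0 n

lemma map_comp_resProjMap (f : M ⟶ M) (x : X) (n : ℕ) :
    groupCohomology.map (MonoidHom.id G) f n ≫ S.resProjMap x n =
      groupCohomology.map (MulAction.stabilizer G x).subtype
        ((resFunctor (MulAction.stabilizer G x).subtype).map f ≫ S.proj x) n := by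
  have h1 := groupCohomology.map_comp (k := k) (A := M) (B := M) (C := S.stabRep x)
    (MonoidHom.id G) (MulAction.stabilizer G x).subtype f (S.proj x) n
  rw [← h1]
  exact groupCohomology.map_congr rfl rfl n

variable {ι : Type*} [Fintype ι] (r : ι → X)
  (hr_surj : ∀ x, ∃ i, x ∈ MulAction.orbit G (r i))
  (hr_inj : ∀ i j, r j ∈ MulAction.orbit G (r i) → i = j)

omit [Fintype ι] in
include hr_inj in
open Classical in
lemma map_orbitProj_comp_resProjMap (i j : ι) (n : ℕ) :
    groupCohomology.map (MonoidHom.id G) (S.orbitProj (r j)) n ≫ S.resProjMap (r i) n =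
      if i = j then S.resProjMap (r i) n else 0 := by
  rw [map_comp_resProjMap, S.res_orbitProj_comp_proj r hr_inj i j]
  split_ifs
  · rfl
  · exact map_zero' _ n

include hr_surj hr_inj in
/-- **Semilocal Shapiro, general form**: for a family `r` of orbit representatives of the finite
`G`-set `X`, the maps *restrict to the stabiliser of `r i`, then project to the block at `r i`*
induce a bijection `Hⁿ(G, M) ≃ ∏ i, Hⁿ(G_{r i}, block (r i))`. -/
theorem bijective_resProjMap (n : ℕ) :
    Function.Bijective (fun (c : groupCohomology M n) (i : ι) => (S.resProjMap (r i) n).hom c) := by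
  classical
  -- the explicit Shapiro isomorphisms
  have hsh : ∀ x : X, Function.Bijective
      (groupCohomology.map (MulAction.stabilizer G x).subtype
        (ev1 (MulAction.stabilizer G x) (S.stabRep x)) n).hom := fun x =>
    ConcreteCategory.bijective_of_isIso _
  have hθ : ∀ (x : X) (c : groupCohomology M n), (S.resProjMap x n).hom c =
      (groupCohomology.map (MulAction.stabilizer G x).subtype
        (ev1 (MulAction.stabilizer G x) (S.stabRep x)) n).hom
      ((groupCohomology.map (MonoidHom.id G) (S.toCoind x) n).hom c) := by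
    intro x c
    rw [S.resProjMap_eq x n]
    rfl
  have hP : ∀ (x : X) (c : groupCohomology M n),
      (groupCohomology.map (MonoidHom.id G) (S.fromCoind x) n).hom
        ((groupCohomology.map (MonoidHom.id G) (S.toCoind x) n).hom c) =
      (groupCohomology.map (MonoidHom.id G) (S.orbitProj x) n).hom c := by
    intro x c
    rw [← S.map_toCoind_comp_map_fromCoind x n]
    rfl
  have hsum : ∀ c : groupCohomology M n,
      ∑ i, (groupCohomology.map (MonoidHom.id G) (S.orbitProj (r i)) n).hom c = c := by
    intro c
    have h1 := map_id_sum (k := k) Finset.univ (fun i => S.orbitProj (r i)) n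
    rw [S.sum_orbitProj r hr_surj hr_inj, groupCohomology.map_id] at h1
    have h2 := congrArg (fun f => f.hom c) h1
    simp only [ModuleCat.hom_id, LinearMap.id_coe, id_eq, ModuleCat.hom_sum,
      LinearMap.sum_apply] at h2
    exact h2.symm
  constructor
  · -- injectivity
    intro c c' h
    have h' : ∀ i, (S.resProjMap (r i) n).hom (c - c') = 0 := by
      intro i
      rw [map_sub, sub_eq_zero]
      exact congrFun h i
    have h0 : ∀ i, (groupCohomology.map (MonoidHom.id G) (S.toCoind (r i)) n).hom (c - c') = 0 := by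
      intro i
      apply (hsh (r i)).1
      rw [← hθ, h' i, map_zero]
    have : c - c' = 0 := by
      rw [← hsum (c - c')]
      refine Finset.sum_eq_zero fun i _ => ?_
      rw [← hP, h0 i, map_zero]
    exact sub_eq_zero.1 this
  · -- surjectivity
    intro d
    choose e he using fun i => (hsh (r i)).2 (d i)
    refine ⟨∑ j, (groupCohomology.map (MonoidHom.id G) (S.fromCoind (r j)) n).hom (e j), ?_⟩
    funext i
    change (S.resProjMap (r i) n).hom _ = d i
    rw [map_sum, Finset.sum_eq_single i]
    · rw [hθ]
      have h1 := congrArg (fun f => f.hom (e i)) (S.map_fromCoind_comp_map_toCoind (r i) n)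
      simp only [ModuleCat.hom_comp, LinearMap.coe_comp, Function.comp_apply, ModuleCat.hom_id,
        LinearMap.id_coe, id_eq] at h1
      rw [h1, he i]
    · intro j _ hji
      -- `fromCoind (r j) = fromCoind (r j) ≫ orbitProj (r j)`
      have h1 : S.fromCoind (r j) = S.fromCoind (r j) ≫ S.orbitProj (r j) := by
        rw [← S.toCoind_comp_fromCoind, ← Category.assoc, S.fromCoind_comp_toCoind,
          Category.id_comp]
      have h2 : groupCohomology.map
          (A := coind (MulAction.stabilizer G (r j)).subtype (S.stabRep (r j))) (B := M)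
          (MonoidHom.id G) (S.fromCoind (r j)) n ≫ S.resProjMap (r i) n = 0 := by
        rw [h1, groupCohomology.map_id_comp, Category.assoc,
          S.map_orbitProj_comp_resProjMap r hr_inj i j n, if_neg (Ne.symm hji), Limits.comp_zero]
      have h3 := congrArg (fun f => f.hom (e j)) h2
      simpa only [ModuleCat.hom_comp, LinearMap.coe_comp, Function.comp_apply, ModuleCat.hom_zero,
        LinearMap.zero_apply] using h3
    · intro h
      exact absurd (Finset.mem_univ i) h

end Cohomology

end ImprimitivitySystem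

section UnitsOrbits

variable {G R : Type} [Group G] [CommRing R] [MulSemiringAction G R]
  [MulDistribMulAction G Rˣ] {X : Type*} [MulAction G X] [Fintype X]
  (hcoe : ∀ (g : G) (u : Rˣ), ((g • u : Rˣ) : R) = g • (u : R))
  (e : X → R) (he : CompleteOrthogonalIdempotents e)
  (hge : ∀ (g : G) x, g • e x = e (g • x))
  {ι : Type*} [Fintype ι] (r : ι → X)
  (hr_surj : ∀ x, ∃ i, x ∈ MulAction.orbit G (r i))
  (hr_inj : ∀ i j, r j ∈ MulAction.orbit G (r i) → i = j)
  (T : ι → Type) [∀ i, CommRing (T i)]
  [∀ i, MulDistribMulAction (MulAction.stabilizer G (r i)) (T i)ˣ]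
  (φ : ∀ i, R →+* T i)
  (hφ : ∀ i (h : MulAction.stabilizer G (r i)) (u : Rˣ),
    Units.map (φ i : R →* T i) ((h : G) • u) = h • Units.map (φ i : R →* T i) u)
  (hφe : ∀ i, φ i (e (r i)) = 1)
  (hker : ∀ i r', φ i r' = 0 → r' * e (r i) = 0)
  (hsurj : ∀ i, Function.Surjective (φ i))

include hcoe e he hge hr_surj hr_inj hφe hker hsurj in
/-- **Semilocal Shapiro for units, general form**: `R` a commutative ring with a `G`-action
permuting a complete family of orthogonal idempotents `e x`, `r` a family of representatives of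
the `G`-orbits on the index set, `φ i : R → T i` identifying `T i` with `R / (1 - e (r i))`.  Then
`Hⁿ(G, Rˣ) → ∏ i, Hⁿ(G_{r i}, (T i)ˣ)` (restriction followed by `Rˣ → (T i)ˣ`) is bijective.
For `R = L ⊗ ℚ_q` and `G = Gal(L/K)`: `Hⁿ(G, (L ⊗ ℚ_q)ˣ) = ∏_{v ∣ q} Hⁿ(G_w, L_wˣ)`. -/
theorem bijective_unitsResMap (n : ℕ) :
    Function.Bijective (fun (c : groupCohomology (Rep.ofMulDistribMulAction G Rˣ) n) (i : ι) =>
      (groupCohomology.map (MulAction.stabilizer G (r i)).subtype
        (unitsResMap (r i) (φ i) (hφ i)) n).hom c) := by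
  have hΘ := (ImprimitivitySystem.ofIdempotents hcoe e he hge).bijective_resProjMap
    r hr_surj hr_inj n
  have hB : ∀ i, Function.Bijective (groupCohomology.map
      (A := (ImprimitivitySystem.ofIdempotents hcoe e he hge).stabRep (r i))
      (B := Rep.ofMulDistribMulAction (MulAction.stabilizer G (r i)) (T i)ˣ)
      (MonoidHom.id (MulAction.stabilizer G (r i)))
      (blockToUnits hcoe e he hge (r i) (φ i) (hφ i)) n).hom := by
    intro i
    have h3 : IsIso (blockToUnits hcoe e he hge (r i) (φ i) (hφ i)) :=
      (blockUnitsIso hcoe e he hge (r i) (φ i) (hφ i) (hφe i) (hker i) (hsurj i)).isIso_hom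
    have h4 := isIso_map_id_of_isIso (blockToUnits hcoe e he hge (r i) (φ i) (hφ i)) n
    exact ConcreteCategory.bijective_of_isIso _
  have hfac : ∀ (c : groupCohomology (Rep.ofMulDistribMulAction G Rˣ) n) (i : ι),
      (groupCohomology.map (MulAction.stabilizer G (r i)).subtype
        (unitsResMap (r i) (φ i) (hφ i)) n).hom c =
      (groupCohomology.map
        (A := (ImprimitivitySystem.ofIdempotents hcoe e he hge).stabRep (r i))
        (B := Rep.ofMulDistribMulAction (MulAction.stabilizer G (r i)) (T i)ˣ)
        (MonoidHom.id (MulAction.stabilizer G (r i)))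
        (blockToUnits hcoe e he hge (r i) (φ i) (hφ i)) n).hom
      (((ImprimitivitySystem.ofIdempotents hcoe e he hge).resProjMap (r i) n).hom c) := by
    intro c i
    have h1 := groupCohomology.map_comp (k := ℤ) (A := Rep.ofMulDistribMulAction G Rˣ)
      (B := (ImprimitivitySystem.ofIdempotents hcoe e he hge).stabRep (r i))
      (C := Rep.ofMulDistribMulAction (MulAction.stabilizer G (r i)) (T i)ˣ)
      (MulAction.stabilizer G (r i)).subtype (MonoidHom.id (MulAction.stabilizer G (r i)))
      ((ImprimitivitySystem.ofIdempotents hcoe e he hge).proj (r i))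
      (blockToUnits hcoe e he hge (r i) (φ i) (hφ i)) n
    have h2 : groupCohomology.map (MulAction.stabilizer G (r i)).subtype
        (unitsResMap (r i) (φ i) (hφ i)) n =
        groupCohomology.map (MulAction.stabilizer G (r i)).subtype
          ((ImprimitivitySystem.ofIdempotents hcoe e he hge).proj (r i)) n ≫
        groupCohomology.map (MonoidHom.id (MulAction.stabilizer G (r i)))
          (blockToUnits hcoe e he hge (r i) (φ i) (hφ i)) n := by
      rw [← h1]
      refine groupCohomology.map_congr rfl ?_ n
      rw [← proj_comp_blockToUnits (r i) (φ i) (hφ i) hcoe e he hge (hφe i)]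
      rfl
    rw [h2]
    rfl
  constructor
  · intro c c' h
    apply hΘ.1
    funext i
    apply (hB i).1
    have := congrFun h i
    simp only [hfac] at this
    exact this
  · intro d
    choose d' hd' using fun i => (hB i).2 (d i)
    obtain ⟨c, hc⟩ := hΘ.2 d'
    refine ⟨c, ?_⟩
    funext i
    simp only [hfac]
    have := congrFun hc i
    simp only at this
    rw [this, hd' i]

end UnitsOrbits

end Fermat.Agent.CFT.C1
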