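import Fermat.Agent.CFT.C1.LocRelative
import Fermat.Agent.CFT.C5.LocalFields
import Fermat.Agent.CFT.C6.SplitIdem

/-!
# Dictionary: maximal ideals of `L ⊗ ℚ_q` ↔ primes of `𝓞 L` over `q`

`maxSpec v := ker (v.locToKv)` is an equivariant bijection
`PrimeOver q (𝓞 L) ≃ MaximalSpectrum (Loc L q)`, so the semilocal Shapiro statements of
`C1/LocGalois`, `C1/LocRelative` can be read with places = primes (helper5's `Dict`), and the residue
field `Lw q (maxSpec v)` IS helper20's `C5.LocalFields.Kv v`.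
-/

namespace Fermat.Agent.CFT.C1.PrimeDict

open Fermat.Agent.CFT.Idele Fermat.Agent.CFT.Dict Fermat.Agent.CFT.C1.SemilocalHom
  Fermat.Agent.CFT.C1.LocalGalois Fermat.Agent.CFT.C1.LocGalois Fermat.Agent.CFT.C5.LocalFields
  Fermat.Agent.CFT.C6.SplitIdem
open scoped TensorProduct NumberField Fermat.Agent.CFT.Idele Fermat.Agent.CFT.C1

variable {L : Type} [Field L] [NumberField L] {q : Nat.Primes}

/-- The maximal ideal of `L ⊗ ℚ_q` attached to a prime `v` of `𝓞 L` over `q`. -/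
noncomputable def maxSpec (v : PrimeOver (q : ℕ) (𝓞 L)) : MaximalSpectrum (Loc L q) :=
  ⟨kerV v, kerV_isMaximal v⟩

lemma maxSpec_asIdeal (v : PrimeOver (q : ℕ) (𝓞 L)) : (maxSpec v).asIdeal = kerV v := rfl

lemma mem_maxSpec_iff (v : PrimeOver (q : ℕ) (𝓞 L)) (x : Loc L q) :
    x ∈ (maxSpec v).asIdeal ↔ v.locToKv x = 0 := RingHom.mem_ker

theorem maxSpec_injective :
    Function.Injective (maxSpec : PrimeOver (q : ℕ) (𝓞 L) → MaximalSpectrum (Loc L q)) :=
  fun _ _ h => kerV_injective (congrArg MaximalSpectrum.asIdeal h)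

theorem maxSpec_surjective :
    Function.Surjective (maxSpec : PrimeOver (q : ℕ) (𝓞 L) → MaximalSpectrum (Loc L q)) := by
  intro 𝔪
  have h1 : (Finset.univ : Finset (PrimeOver (q : ℕ) (𝓞 L))).inf kerV ≤ 𝔪.asIdeal := by
    rw [Finset.inf_univ_eq_iInf, iInf_kerV]
    exact bot_le
  obtain ⟨v, -, hv⟩ := (Ideal.IsPrime.inf_le' 𝔪.isMaximal.isPrime).1 h1
  refine ⟨v, MaximalSpectrum.ext ?_⟩
  exact (kerV_isMaximal v).eq_of_le 𝔪.isMaximal.ne_top hv

/-- **Places of `L ⊗ ℚ_q` = primes of `𝓞 L` over `q`.** -/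
noncomputable def maxSpecEquiv : PrimeOver (q : ℕ) (𝓞 L) ≃ MaximalSpectrum (Loc L q) :=
  Equiv.ofBijective maxSpec ⟨maxSpec_injective, maxSpec_surjective⟩

@[simp] lemma maxSpecEquiv_apply (v : PrimeOver (q : ℕ) (𝓞 L)) : maxSpecEquiv v = maxSpec v := rfl

/-- The residue field of `L ⊗ ℚ_q` at `maxSpec v` is helper20's local field `Kv v`. -/
lemma Lw_maxSpec (v : PrimeOver (q : ℕ) (𝓞 L)) : Lw q (maxSpec v) = Kv v := rfl

section Action

variable {G : Type} [Group G] (φ : G →* (L ≃ₐ[ℚ] L))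

/-- **Equivariance**: the action on maximal ideals is the action on primes. -/
theorem placeSMul_maxSpec (g : G) (v : PrimeOver (q : ℕ) (𝓞 L)) :
    placeSMul (locRho φ q) g (maxSpec v) = maxSpec (φ g • v) := by
  apply MaximalSpectrum.ext
  ext x
  rw [mem_placeSMul_iff, mem_maxSpec_iff, mem_maxSpec_iff, ← mul_primeIdem_eq_zero_iff,
    ← mul_primeIdem_eq_zero_iff, ← aut_primeIdem]
  have h : x * Loc.aut L q (φ g) (primeIdem v) =
      locRho φ q g ((locRho φ q g).symm x * primeIdem v) := by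
    rw [map_mul, RingEquiv.apply_symm_apply]; rfl
  rw [h]
  exact (map_eq_zero_iff _ (locRho φ q g).injective).symm

/-- The decomposition group of `maxSpec v` is the stabiliser of the prime `v`. -/
theorem mem_decomp_maxSpec_iff (g : G) (v : PrimeOver (q : ℕ) (𝓞 L)) :
    g ∈ decomp (locRho φ q) (maxSpec v) ↔ φ g • v = v := by
  rw [mem_decomp_iff, placeSMul_maxSpec]
  exact maxSpec_injective.eq_iff

end Action

end Fermat.Agent.CFT.C1.PrimeDict
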