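import Fermat.Agent.CFT.C1.Orbits

/-!
# Semilocal rings with a group action: primitive idempotents and Shapiro for units

`B` a commutative reduced Artinian ring (a finite product of fields, e.g. `L ⊗_ℚ ℚ_q`) with an
action of a group `G` by ring automorphisms.  Then `G` permutes the maximal ideals of `B`, the
primitive idempotents `primIdem 𝔪` (indexed by `MaximalSpectrum B`) form a complete orthogonal
family with `g • primIdem 𝔪 = primIdem (g • 𝔪)`, and every surjection `φ : B → T` with kernel `𝔪`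
satisfies the hypotheses of `blockUnitsIso` / `bijective_unitsResMap`.
-/

namespace Fermat.Agent.CFT.C1.Semilocal

open scoped Pointwise

section Action

variable {G B : Type*} [Group G] [CommRing B] [MulSemiringAction G B]

lemma isMaximal_smul (g : G) (I : Ideal B) [hI : I.IsMaximal] : (g • I).IsMaximal := by
  rw [Ideal.pointwise_smul_eq_comap]
  infer_instance

/-- The action of `G` on the maximal spectrum of `B`. -/
@[instance_reducible]
noncomputable def maxSpecMulAction : MulAction G (MaximalSpectrum B) where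
  smul g 𝔪 := ⟨g • 𝔪.asIdeal, haveI := 𝔪.isMaximal; isMaximal_smul g 𝔪.asIdeal⟩
  one_smul 𝔪 := MaximalSpectrum.ext (one_smul G 𝔪.asIdeal)
  mul_smul g h 𝔪 := MaximalSpectrum.ext (mul_smul g h 𝔪.asIdeal)

scoped[Fermat.Agent.CFT.C1] attribute [instance] Fermat.Agent.CFT.C1.Semilocal.maxSpecMulAction

open scoped Fermat.Agent.CFT.C1

@[simp] lemma smul_asIdeal (g : G) (𝔪 : MaximalSpectrum B) :
    (g • 𝔪).asIdeal = g • 𝔪.asIdeal := rfl

lemma mem_smul_iff (g : G) (𝔪 : MaximalSpectrum B) (x : B) :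
    x ∈ (g • 𝔪).asIdeal ↔ g⁻¹ • x ∈ 𝔪.asIdeal := by
  rw [smul_asIdeal, Ideal.mem_pointwise_smul_iff_inv_smul_mem]

lemma stabilizer_eq (𝔪 : MaximalSpectrum B) :
    MulAction.stabilizer G 𝔪 = MulAction.stabilizer G 𝔪.asIdeal := by
  ext g
  simp only [MulAction.mem_stabilizer_iff]
  constructor
  · intro h
    exact congrArg MaximalSpectrum.asIdeal h
  · intro h
    exact MaximalSpectrum.ext h

end Action

section Idem

variable {B : Type*} [CommRing B] [IsArtinianRing B] [IsReduced B]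

/-- Two elements of a reduced Artinian ring agreeing modulo every maximal ideal are equal. -/
lemma ext_of_mk {x y : B}
    (h : ∀ 𝔪 : MaximalSpectrum B, Ideal.Quotient.mk 𝔪.asIdeal x = Ideal.Quotient.mk 𝔪.asIdeal y) :
    x = y :=
  (IsArtinianRing.equivPi B).injective (funext h)

open Classical in
/-- The primitive idempotent of `B` attached to the maximal ideal `𝔪`
(`≡ 1` modulo `𝔪`, `≡ 0` modulo the other maximal ideals). -/
noncomputable def primIdem (𝔪 : MaximalSpectrum B) : B :=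
  (IsArtinianRing.equivPi B).symm (Pi.single 𝔪 1)

open Classical in
lemma mk_primIdem (𝔪 𝔪' : MaximalSpectrum B) :
    Ideal.Quotient.mk 𝔪'.asIdeal (primIdem 𝔪) = if 𝔪' = 𝔪 then 1 else 0 := by
  have h := congrFun ((IsArtinianRing.equivPi B).apply_symm_apply (Pi.single 𝔪 1)) 𝔪'
  change Ideal.Quotient.mk 𝔪'.asIdeal (primIdem 𝔪) = _ at h
  rw [h]
  by_cases h1 : 𝔪' = 𝔪
  · subst h1
    rw [Pi.single_eq_same, if_pos rfl]
  · rw [Pi.single_eq_of_ne h1, if_neg h1]

lemma mk_primIdem_self (𝔪 : MaximalSpectrum B) :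
    Ideal.Quotient.mk 𝔪.asIdeal (primIdem 𝔪) = 1 := by
  rw [mk_primIdem, if_pos rfl]

lemma mk_primIdem_of_ne {𝔪 𝔪' : MaximalSpectrum B} (h : 𝔪' ≠ 𝔪) :
    Ideal.Quotient.mk 𝔪'.asIdeal (primIdem 𝔪) = 0 := by
  rw [mk_primIdem, if_neg h]

lemma primIdem_sub_one_mem (𝔪 : MaximalSpectrum B) : primIdem 𝔪 - 1 ∈ 𝔪.asIdeal := by
  rw [← Ideal.Quotient.eq_zero_iff_mem, map_sub, mk_primIdem_self, map_one, sub_self]

lemma primIdem_mem_of_ne {𝔪 𝔪' : MaximalSpectrum B} (h : 𝔪' ≠ 𝔪) : primIdem 𝔪 ∈ 𝔪'.asIdeal := by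
  rw [← Ideal.Quotient.eq_zero_iff_mem, mk_primIdem_of_ne h]

/-- Characterisation of the primitive idempotent. -/
lemma eq_primIdem_of {𝔪 : MaximalSpectrum B} {x : B} (h1 : x - 1 ∈ 𝔪.asIdeal)
    (h2 : ∀ 𝔪' : MaximalSpectrum B, 𝔪' ≠ 𝔪 → x ∈ 𝔪'.asIdeal) : x = primIdem 𝔪 := by
  apply ext_of_mk
  intro 𝔪'
  by_cases h : 𝔪' = 𝔪
  · subst h
    rw [mk_primIdem_self]
    rw [← Ideal.Quotient.eq_zero_iff_mem, map_sub, map_one, sub_eq_zero] at h1
    exact h1
  · rw [mk_primIdem_of_ne h, Ideal.Quotient.eq_zero_iff_mem]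
    exact h2 𝔪' h

lemma primIdem_mul_self (𝔪 : MaximalSpectrum B) : primIdem 𝔪 * primIdem 𝔪 = primIdem 𝔪 := by
  classical
  apply ext_of_mk
  intro 𝔪'
  rw [map_mul, mk_primIdem]
  split_ifs <;> simp

lemma primIdem_mul_of_ne {𝔪 𝔪' : MaximalSpectrum B} (h : 𝔪 ≠ 𝔪') :
    primIdem 𝔪 * primIdem 𝔪' = 0 := by
  classical
  apply ext_of_mk
  intro 𝔪''
  rw [map_mul, mk_primIdem, mk_primIdem, map_zero]
  by_cases h1 : 𝔪'' = 𝔪
  · rw [if_pos h1, if_neg (fun h2 => h (h1.symm.trans h2)), mul_zero]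
  · rw [if_neg h1, zero_mul]

lemma sum_primIdem [Fintype (MaximalSpectrum B)] : ∑ 𝔪 : MaximalSpectrum B, primIdem 𝔪 = 1 := by
  classical
  apply ext_of_mk
  intro 𝔪'
  rw [map_sum, map_one]
  simp only [mk_primIdem]
  rw [Finset.sum_ite_eq Finset.univ 𝔪' (fun _ => (1 : B ⧸ 𝔪'.asIdeal)), if_pos (Finset.mem_univ _)]

lemma completeOrthogonalIdempotents_primIdem [Fintype (MaximalSpectrum B)] :
    CompleteOrthogonalIdempotents (primIdem : MaximalSpectrum B → B) where
  idem 𝔪 := primIdem_mul_self 𝔪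
  ortho _ _ h := primIdem_mul_of_ne h
  complete := sum_primIdem

/-- Elements of `𝔪` are killed by the primitive idempotent at `𝔪`. -/
lemma mul_primIdem_eq_zero_of_mem {𝔪 : MaximalSpectrum B} {x : B} (hx : x ∈ 𝔪.asIdeal) :
    x * primIdem 𝔪 = 0 := by
  classical
  apply ext_of_mk
  intro 𝔪'
  rw [map_mul, map_zero, mk_primIdem]
  split_ifs with h
  · subst h
    rw [Ideal.Quotient.eq_zero_iff_mem.2 hx, zero_mul]
  · rw [mul_zero]

end Idem

section Equivariance

open scoped Fermat.Agent.CFT.C1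

variable {G B : Type*} [Group G] [CommRing B] [MulSemiringAction G B]
  [IsArtinianRing B] [IsReduced B]

/-- The group permutes the primitive idempotents. -/
lemma smul_primIdem (g : G) (𝔪 : MaximalSpectrum B) :
    g • primIdem 𝔪 = primIdem (g • 𝔪) := by
  apply eq_primIdem_of
  · rw [mem_smul_iff, smul_sub, smul_one, inv_smul_smul]
    exact primIdem_sub_one_mem 𝔪
  · intro 𝔪' h𝔪'
    have h1 : g⁻¹ • 𝔪' ≠ 𝔪 := by
      intro h
      apply h𝔪'
      rw [← h, smul_inv_smul]
    have h2 := primIdem_mem_of_ne h1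
    rw [mem_smul_iff, inv_inv] at h2
    exact h2

end Equivariance

section Shapiro

open scoped Fermat.Agent.CFT.C1
open CategoryTheory

variable {G B : Type} [Group G] [CommRing B] [MulSemiringAction G B]
  [MulDistribMulAction G Bˣ] [IsArtinianRing B] [IsReduced B] [Fintype (MaximalSpectrum B)]
  (hcoe : ∀ (g : G) (u : Bˣ), ((g • u : Bˣ) : B) = g • (u : B))

/-- The imprimitivity system on `Bˣ` given by the primitive idempotents of a reduced Artinian
ring `B` with `G`-action. -/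
noncomputable def unitsSystem :
    ImprimitivitySystem (Rep.ofMulDistribMulAction G Bˣ) (MaximalSpectrum B) :=
  ImprimitivitySystem.ofIdempotents hcoe primIdem completeOrthogonalIdempotents_primIdem
    smul_primIdem

variable {ι : Type*} [Fintype ι] (r : ι → MaximalSpectrum B)
  (hr_surj : ∀ 𝔪, ∃ i, 𝔪 ∈ MulAction.orbit G (r i))
  (hr_inj : ∀ i j, r j ∈ MulAction.orbit G (r i) → i = j)
  (T : ι → Type) [∀ i, CommRing (T i)]
  [∀ i, MulDistribMulAction (MulAction.stabilizer G (r i)) (T i)ˣ]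
  (φ : ∀ i, B →+* T i)
  (hφ : ∀ i (h : MulAction.stabilizer G (r i)) (u : Bˣ),
    Units.map (φ i : B →* T i) ((h : G) • u) = h • Units.map (φ i : B →* T i) u)
  (hkerφ : ∀ i, RingHom.ker (φ i) = (r i).asIdeal)
  (hsurj : ∀ i, Function.Surjective (φ i))

include hcoe hr_surj hr_inj hkerφ hsurj in
/-- **Semilocal Shapiro for the units of a reduced Artinian ring** (`B = L ⊗ ℚ_q`): if the
`r i` represent the `G`-orbits on the maximal ideals of `B` and `φ i : B → T i` is surjective with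
kernel `r i` (so `T i` is the local field at `r i`), then
`Hⁿ(G, Bˣ) → ∏ i, Hⁿ(G_{r i}, (T i)ˣ)` (restriction followed by `Bˣ → (T i)ˣ`) is bijective. -/
theorem bijective_unitsResMap_semilocal (n : ℕ) :
    Function.Bijective (fun (c : groupCohomology (Rep.ofMulDistribMulAction G Bˣ) n) (i : ι) =>
      (groupCohomology.map (MulAction.stabilizer G (r i)).subtype
        (unitsResMap (r i) (φ i) (hφ i)) n).hom c) := by
  refine bijective_unitsResMap hcoe primIdem completeOrthogonalIdempotents_primIdem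
    smul_primIdem r hr_surj hr_inj T φ hφ ?_ ?_ hsurj n
  · intro i
    have h := primIdem_sub_one_mem (r i)
    rw [← hkerφ i, RingHom.mem_ker, map_sub, map_one, sub_eq_zero] at h
    exact h
  · intro i x hx
    apply mul_primIdem_eq_zero_of_mem
    rw [← hkerφ i, RingHom.mem_ker]
    exact hx

end Shapiro

end Fermat.Agent.CFT.C1.Semilocal
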