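import Fermat.Agent.CFT.C1.Semilocal

/-!
# Semilocal Shapiro for units, hom-based packaging (no instance arguments)

`B` a commutative ring, `ρ : G →* RingAut B`.  All actions are derived from `ρ` internally, so the
statements only mention `ρ`:

* `unitsRep ρ : Rep ℤ G` on `Additive Bˣ`;
* `placeSMul ρ g 𝔪`, `decomp ρ 𝔪 : Subgroup G` (decomposition group of a maximal ideal);
* `quotAut ρ 𝔪 : decomp ρ 𝔪 →* RingAut (B ⧸ 𝔪)`, `localUnitsRep ρ 𝔪 : Rep ℤ (decomp ρ 𝔪)`;
* `localRes ρ 𝔪 : Res (unitsRep ρ) ⟶ localUnitsRep ρ 𝔪`;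
* `bijective_localRes`: for `B` reduced Artinian and orbit representatives `r i`,
  `Hⁿ(G, Bˣ) → ∏ i, Hⁿ(decomp (r i), (B ⧸ r i)ˣ)` is bijective.
-/

namespace Fermat.Agent.CFT.C1.SemilocalHom

open CategoryTheory
open scoped Pointwise

variable {G B : Type} [Group G] [CommRing B] (ρ : G →* RingAut B)

/-- The action of `G` on `B` through `ρ`. -/
@[reducible] noncomputable def ringAction : MulSemiringAction G B :=
  MulSemiringAction.compHom B ρ

lemma ringAction_smul (g : G) (x : B) : (letI := ringAction ρ; g • x) = ρ g x := rfl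

/-- The action of `G` on `Bˣ` through `ρ`. -/
@[reducible] noncomputable def unitsAction : MulDistribMulAction G Bˣ :=
  letI := ringAction ρ
  Units.mulDistribMulActionRight

lemma unitsAction_smul_coe (g : G) (u : Bˣ) :
    (((letI := unitsAction ρ; g • u) : Bˣ) : B) = ρ g (u : B) := rfl

/-- The representation of `G` on the unit group of `B`. -/
noncomputable def unitsRep : Rep ℤ G :=
  letI := unitsAction ρ
  Rep.ofMulDistribMulAction G Bˣ

/-- Identification of the carrier of `unitsRep ρ` with `Additive Bˣ`. -/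
noncomputable def unitsRepAddEquiv : (unitsRep ρ).V ≃+ Additive Bˣ := AddEquiv.refl _

lemma unitsRep_ρ_apply (g : G) (m : (unitsRep ρ).V) :
    unitsRepAddEquiv ρ ((unitsRep ρ).ρ g m) =
      Additive.ofMul (Units.map ((ρ g : B ≃+* B) : B →* B) (unitsRepAddEquiv ρ m).toMul) := by
  apply congrArg Additive.ofMul
  exact Units.ext rfl

/-- The action of `G` on the maximal ideals of `B`. -/
@[reducible] noncomputable def placeAction : MulAction G (MaximalSpectrum B) :=
  letI := ringAction ρ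
  Semilocal.maxSpecMulAction

/-- `g • 𝔪`, as a function. -/
noncomputable def placeSMul (g : G) (𝔪 : MaximalSpectrum B) : MaximalSpectrum B :=
  letI := placeAction ρ
  g • 𝔪

lemma mem_placeSMul_iff (g : G) (𝔪 : MaximalSpectrum B) (x : B) :
    x ∈ (placeSMul ρ g 𝔪).asIdeal ↔ (ρ g).symm x ∈ 𝔪.asIdeal := by
  let _ := ringAction ρ
  have := Semilocal.mem_smul_iff g 𝔪 x
  rw [show (ρ g).symm x = g⁻¹ • x from by
    change (ρ g).symm x = ρ g⁻¹ x
    rw [map_inv]; rfl]
  exact this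

/-- The decomposition group of the maximal ideal `𝔪`. -/
noncomputable def decomp (𝔪 : MaximalSpectrum B) : Subgroup G :=
  letI := placeAction ρ
  MulAction.stabilizer G 𝔪

lemma mem_decomp_iff (g : G) (𝔪 : MaximalSpectrum B) :
    g ∈ decomp ρ 𝔪 ↔ placeSMul ρ g 𝔪 = 𝔪 := Iff.rfl

lemma map_eq_of_mem_decomp {g : G} {𝔪 : MaximalSpectrum B} (hg : g ∈ decomp ρ 𝔪) :
    𝔪.asIdeal = 𝔪.asIdeal.map ((ρ g : B ≃+* B) : B →+* B) := by
  have h := congrArg MaximalSpectrum.asIdeal ((mem_decomp_iff ρ g 𝔪).1 hg)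
  exact h.symm

/-- The automorphism of the residue field `B ⧸ 𝔪` induced by an element of the decomposition
group. -/
noncomputable def quotAut (𝔪 : MaximalSpectrum B) : decomp ρ 𝔪 →* RingAut (B ⧸ 𝔪.asIdeal) where
  toFun g := Ideal.quotientEquiv 𝔪.asIdeal 𝔪.asIdeal (ρ g) (map_eq_of_mem_decomp ρ g.2)
  map_one' := by
    ext x
    obtain ⟨x, rfl⟩ := Ideal.Quotient.mk_surjective x
    simp
  map_mul' g h := by
    ext x
    obtain ⟨x, rfl⟩ := Ideal.Quotient.mk_surjective x
    simp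

@[simp] lemma quotAut_mk (𝔪 : MaximalSpectrum B) (g : decomp ρ 𝔪) (x : B) :
    quotAut ρ 𝔪 g (Ideal.Quotient.mk 𝔪.asIdeal x) = Ideal.Quotient.mk 𝔪.asIdeal (ρ g x) := rfl

/-- The representation of the decomposition group on the units of the residue field. -/
noncomputable def localUnitsRep (𝔪 : MaximalSpectrum B) : Rep ℤ (decomp ρ 𝔪) :=
  unitsRep (quotAut ρ 𝔪)

lemma quotAut_units_equivariant (𝔪 : MaximalSpectrum B) (h : decomp ρ 𝔪) (u : Bˣ) :
    letI := unitsAction ρ
    letI := unitsAction (quotAut ρ 𝔪)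
    Units.map (Ideal.Quotient.mk 𝔪.asIdeal : B →* B ⧸ 𝔪.asIdeal) ((h : G) • u) =
      h • Units.map (Ideal.Quotient.mk 𝔪.asIdeal : B →* B ⧸ 𝔪.asIdeal) u :=
  Units.ext rfl

/-- Restriction to the decomposition group followed by reduction modulo `𝔪`, as a morphism of
representations `Res (Bˣ) ⟶ (B ⧸ 𝔪)ˣ`. -/
noncomputable def localRes (𝔪 : MaximalSpectrum B) :
    Rep.res (decomp ρ 𝔪).subtype (unitsRep ρ) ⟶ localUnitsRep ρ 𝔪 :=
  letI := unitsAction ρ
  letI := placeAction ρ
  letI : MulDistribMulAction (MulAction.stabilizer G 𝔪) (B ⧸ 𝔪.asIdeal)ˣ :=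
    unitsAction (quotAut ρ 𝔪)
  unitsResMap 𝔪 (Ideal.Quotient.mk 𝔪.asIdeal) (quotAut_units_equivariant ρ 𝔪)

lemma localRes_hom_apply (𝔪 : MaximalSpectrum B) (m : (unitsRep ρ).V) :
    unitsRepAddEquiv (quotAut ρ 𝔪) ((localRes ρ 𝔪).hom m) =
      Additive.ofMul (Units.map (Ideal.Quotient.mk 𝔪.asIdeal : B →* B ⧸ 𝔪.asIdeal)
        (unitsRepAddEquiv ρ m).toMul) := rfl

variable [IsArtinianRing B] [IsReduced B] [Fintype (MaximalSpectrum B)]
  {ι : Type*} [Fintype ι] (r : ι → MaximalSpectrum B)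
  (hr_surj : ∀ 𝔪, ∃ i, ∃ g : G, placeSMul ρ g (r i) = 𝔪)
  (hr_inj : ∀ i j, (∃ g : G, placeSMul ρ g (r i) = r j) → i = j)

include hr_surj hr_inj in
/-- **Semilocal Shapiro for units** (hom-based form).  `B` reduced Artinian (`= L ⊗ ℚ_q`),
`ρ : G →* RingAut B`, `r i` representatives of the `G`-orbits on the maximal ideals of `B`.  Then
`Hⁿ(G, Bˣ) → ∏ i, Hⁿ(decomp (r i), (B ⧸ r i)ˣ)`, `c ↦ (res then reduce mod r i)_i` is bijective. -/
theorem bijective_localRes (n : ℕ) :
    Function.Bijective (fun (c : groupCohomology (unitsRep ρ) n) (i : ι) =>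
      (groupCohomology.map (decomp ρ (r i)).subtype (localRes ρ (r i)) n).hom c) := by
  let _ := ringAction ρ
  let _ := unitsAction ρ
  let _ : ∀ i, MulDistribMulAction (MulAction.stabilizer G (r i)) (B ⧸ (r i).asIdeal)ˣ :=
    fun i => unitsAction (quotAut ρ (r i))
  exact Semilocal.bijective_unitsResMap_semilocal (G := G) (B := B) (fun _ _ => rfl) r
    hr_surj (fun i j h => hr_inj i j h) (fun i => B ⧸ (r i).asIdeal)
    (fun i => Ideal.Quotient.mk (r i).asIdeal) (fun i => quotAut_units_equivariant ρ (r i))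
    (fun i => Ideal.mk_ker) (fun i => Ideal.Quotient.mk_surjective) n

end Fermat.Agent.CFT.C1.SemilocalHom
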