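import Fermat.Agent.CFT.C1.Units
import Fermat.Agent.CFT.A1.ShapiroMap

/-!
# Semilocal Shapiro, explicit form

For a transitive imprimitivity system `S` on `M` and `x0 : X` with stabiliser `H`, the map
`Hⁿ(G, M) ⟶ Hⁿ(H, block x0)` given by *restriction to `H` followed by the projection `π x0`*
(`groupCohomology.map H.subtype (S.proj x0) n`) is an isomorphism in every degree.
Units form: for a ring `R` with `G`-permuted idempotents and `T = R / (1 - e x0)`, the map
`Hⁿ(G, Rˣ) ⟶ Hⁿ(H, Tˣ)` induced by restriction and `Rˣ → Tˣ` is an isomorphism.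
-/

namespace Fermat.Agent.CFT.C1

open CategoryTheory Rep groupCohomology
open Fermat.Agent.CFT.A1.ShapiroMap

universe u

section General

/-- An isomorphism of coefficients induces an isomorphism on cohomology. -/
theorem isIso_map_id_of_isIso {k G : Type u} [CommRing k] [Group G] {A B : Rep.{u} k G}
    (f : A ⟶ B) [IsIso f] (n : ℕ) : IsIso (groupCohomology.map (MonoidHom.id G) f n) :=
  Functor.map_isIso (groupCohomology.functor k G n) f

variable {k G : Type u} [CommRing k] [Group G] {M : Rep.{u} k G}
  {X : Type*} [MulAction G X] [Fintype X] (S : ImprimitivitySystem M X) (x0 : X)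

/-- `proj x0` is `toCoind x0` followed by evaluation at `1`. -/
theorem ImprimitivitySystem.res_toCoind_comp_ev1 :
    (resFunctor (MulAction.stabilizer G x0).subtype).map (S.toCoind x0) ≫
      ev1 (MulAction.stabilizer G x0) (S.stabRep x0) = S.proj x0 := by
  apply Rep.hom_ext
  apply Representation.IntertwiningMap.ext
  ext m
  change ((((S.toCoind x0).hom m).1 1 : S.block x0) : M.V) = _
  rw [S.toCoind_hom_apply_coe, map_one]
  rfl

/-- The explicit semilocal Shapiro map factors as `Hⁿ(toCoind)` followed by the explicit
Shapiro map of `coind`. -/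
theorem ImprimitivitySystem.map_proj_eq (n : ℕ) :
    groupCohomology.map (MulAction.stabilizer G x0).subtype (S.proj x0) n =
      groupCohomology.map (MonoidHom.id G) (S.toCoind x0) n ≫
        groupCohomology.map (MulAction.stabilizer G x0).subtype
          (ev1 (MulAction.stabilizer G x0) (S.stabRep x0)) n := by
  have h1 := groupCohomology.map_comp (k := k) (A := M)
    (B := coind (MulAction.stabilizer G x0).subtype (S.stabRep x0)) (C := S.stabRep x0)
    (MonoidHom.id G) (MulAction.stabilizer G x0).subtype (S.toCoind x0)
    (ev1 (MulAction.stabilizer G x0) (S.stabRep x0)) n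
  rw [← h1]
  refine groupCohomology.map_congr rfl ?_ n
  rw [S.res_toCoind_comp_ev1]

variable [MulAction.IsPretransitive G X]

/-- **Semilocal Shapiro, explicit form**: restriction to the stabiliser of `x0` followed by the
projection onto the block at `x0` is an isomorphism on cohomology. -/
instance ImprimitivitySystem.isIso_map_proj (n : ℕ) :
    IsIso (groupCohomology.map (MulAction.stabilizer G x0).subtype (S.proj x0) n) := by
  rw [S.map_proj_eq x0 n]
  have : IsIso (groupCohomology.map (MonoidHom.id G) (S.toCoind x0) n) :=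
    ((groupCohomology.functor k G n).mapIso (S.coindIso x0)).isIso_hom
  infer_instance

/-- The explicit semilocal Shapiro isomorphism. -/
noncomputable def ImprimitivitySystem.resProjIso (n : ℕ) :
    groupCohomology M n ≅ groupCohomology (S.stabRep x0) n :=
  asIso (groupCohomology.map (MulAction.stabilizer G x0).subtype (S.proj x0) n)

@[simp] theorem ImprimitivitySystem.resProjIso_hom (n : ℕ) :
    (S.resProjIso x0 n).hom =
      groupCohomology.map (MulAction.stabilizer G x0).subtype (S.proj x0) n := rfl

end General

section Units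

variable {G R T : Type} [Group G] [CommRing R] [MulSemiringAction G R]
  [MulDistribMulAction G Rˣ] {X : Type*} [MulAction G X] [Fintype X]
  (x0 : X) [CommRing T] [MulDistribMulAction (MulAction.stabilizer G x0) Tˣ]
  (φ : R →+* T)
  (hφ : ∀ (h : MulAction.stabilizer G x0) (u : Rˣ),
    Units.map (φ : R →* T) ((h : G) • u) = h • Units.map (φ : R →* T) u)

/-- The map `Res_H Rˣ ⟶ Tˣ` of `H`-representations induced by an `H`-equivariant ring
homomorphism `φ : R → T` (`H` the stabiliser of `x0`). -/
noncomputable def unitsResMap :
    Rep.res (MulAction.stabilizer G x0).subtype (Rep.ofMulDistribMulAction G Rˣ) ⟶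
      Rep.ofMulDistribMulAction (MulAction.stabilizer G x0) Tˣ :=
  Rep.ofHom ⟨(Units.map (φ : R →* T)).toAdditive.toIntLinearMap, fun h => by
    refine LinearMap.ext fun m => ?_
    exact congrArg Additive.ofMul (hφ h (Rep.toAdditive (M := G) (G := Rˣ) m).toMul)⟩

omit [MulSemiringAction G R] [Fintype X] in
theorem unitsResMap_hom_apply (m : (Rep.ofMulDistribMulAction G Rˣ).V) :
    (unitsResMap x0 φ hφ).hom m =
      (Rep.toAdditive (M := MulAction.stabilizer G x0) (G := Tˣ)).symm
        (Additive.ofMul (Units.map (φ : R →* T)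
          ((Rep.toAdditive (M := G) (G := Rˣ) m).toMul))) := rfl

variable (hcoe : ∀ (g : G) (u : Rˣ), ((g • u : Rˣ) : R) = g • (u : R))
  (e : X → R) (he : CompleteOrthogonalIdempotents e)
  (hge : ∀ (g : G) x, g • e x = e (g • x))
  (hφe : φ (e x0) = 1)

include hφe in
theorem proj_comp_blockToUnits :
    (ImprimitivitySystem.ofIdempotents hcoe e he hge).proj x0 ≫
      blockToUnits hcoe e he hge x0 φ hφ = unitsResMap x0 φ hφ := by
  apply Rep.hom_ext
  apply Representation.IntertwiningMap.ext
  refine LinearMap.ext fun m => ?_
  change (Rep.toAdditive (M := MulAction.stabilizer G x0) (G := Tˣ)).symm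
      (Additive.ofMul (Units.map (φ : R →* T)
        (unitProj (e x0) (he.idem x0) ((Rep.toAdditive (M := G) (G := Rˣ) m).toMul)))) =
    (Rep.toAdditive (M := MulAction.stabilizer G x0) (G := Tˣ)).symm
      (Additive.ofMul (Units.map (φ : R →* T) ((Rep.toAdditive (M := G) (G := Rˣ) m).toMul)))
  congr 2
  ext
  simp [hφe]

variable (hker : ∀ r, φ r = 0 → r * e x0 = 0) (hsurj : Function.Surjective φ)

include hcoe e he hge hφe hker hsurj in
/-- **Semilocal Shapiro for units, explicit form**: if `G` permutes the idempotents `e x`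
transitively, `H` is the stabiliser of `x0` and `φ : R → T` identifies `T` with `R / (1 - e x0)`,
then restriction to `H` followed by `Rˣ → Tˣ` is an isomorphism `Hⁿ(G, Rˣ) ≅ Hⁿ(H, Tˣ)`. -/
theorem isIso_map_unitsResMap [MulAction.IsPretransitive G X] (n : ℕ) :
    IsIso (groupCohomology.map (MulAction.stabilizer G x0).subtype
      (unitsResMap x0 φ hφ) n) := by
  have h1 := groupCohomology.map_comp (k := ℤ) (A := Rep.ofMulDistribMulAction G Rˣ)
    (B := (ImprimitivitySystem.ofIdempotents hcoe e he hge).stabRep x0)
    (C := Rep.ofMulDistribMulAction (MulAction.stabilizer G x0) Tˣ)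
    (MulAction.stabilizer G x0).subtype (MonoidHom.id (MulAction.stabilizer G x0))
    ((ImprimitivitySystem.ofIdempotents hcoe e he hge).proj x0)
    (blockToUnits hcoe e he hge x0 φ hφ) n
  have h2 : groupCohomology.map (MulAction.stabilizer G x0).subtype (unitsResMap x0 φ hφ) n =
      groupCohomology.map (MulAction.stabilizer G x0).subtype
        ((ImprimitivitySystem.ofIdempotents hcoe e he hge).proj x0) n ≫
      groupCohomology.map (MonoidHom.id (MulAction.stabilizer G x0))
        (blockToUnits hcoe e he hge x0 φ hφ) n := by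
    rw [← h1]
    refine groupCohomology.map_congr rfl ?_ n
    rw [← proj_comp_blockToUnits x0 φ hφ hcoe e he hge hφe]
    rfl
  rw [h2]
  have h3 : IsIso (blockToUnits hcoe e he hge x0 φ hφ) :=
    (blockUnitsIso hcoe e he hge x0 φ hφ hφe hker hsurj).isIso_hom
  have h4 : IsIso (groupCohomology.map
      (A := (ImprimitivitySystem.ofIdempotents hcoe e he hge).stabRep x0)
      (B := Rep.ofMulDistribMulAction (MulAction.stabilizer G x0) Tˣ)
      (MonoidHom.id (MulAction.stabilizer G x0))
      (blockToUnits hcoe e he hge x0 φ hφ) n) :=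
    isIso_map_id_of_isIso (blockToUnits hcoe e he hge x0 φ hφ) n
  infer_instance

end Units

end Fermat.Agent.CFT.C1
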