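import Fermat.Agent.CFT.C1.Imprimitive

/-!
# Multiplicative forms of the imprimitivity theorem (semilocal Shapiro for units)

* `ImprimitivitySystem.ofMulDistrib`: a `G`-permuted complete family of orthogonal idempotent
  endomorphisms of a commutative group `U` with `G`-action gives an imprimitivity system on
  `Rep.ofMulDistribMulAction G U`.
* `ImprimitivitySystem.ofIdempotents`: a commutative ring `R` with `G`-action and a `G`-permuted
  complete family of orthogonal idempotents `e x` gives an imprimitivity system on `Rˣ`, with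
  `π x u = u * e x + (1 - e x)`.
-/

namespace Fermat.Agent.CFT.C1

open CategoryTheory

section MulForm

variable {G U : Type} [Group G] [CommGroup U] [MulDistribMulAction G U]
  {X : Type*} [MulAction G X] [Fintype X]

/-- (U1) A `G`-permuted complete family of orthogonal idempotent endomorphisms of a commutative
group `U` with a `G`-action is an imprimitivity system on `Rep.ofMulDistribMulAction G U`. -/
def ImprimitivitySystem.ofMulDistrib (π : X → (U →* U))
    (idem : ∀ x u, π x (π x u) = π x u)
    (ortho : ∀ x y, x ≠ y → ∀ u, π x (π y u) = 1)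
    (complete : ∀ u, ∏ x, π x u = u)
    (equivariant : ∀ (g : G) x u, g • π x u = π (g • x) (g • u)) :
    ImprimitivitySystem (Rep.ofMulDistribMulAction G U) X where
  π x := (MonoidHom.toAdditive (π x)).toIntLinearMap
  idem x m := congrArg Additive.ofMul (idem x m.toMul)
  ortho x y hxy m := congrArg Additive.ofMul (ortho x y hxy m.toMul)
  complete m := by
    have := congrArg Additive.ofMul (complete m.toMul)
    rw [ofMul_prod] at this
    exact this
  equivariant g x m := congrArg Additive.ofMul (equivariant g x m.toMul)

end MulForm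

section RingForm

variable {R : Type*} [CommRing R]

/-- For an idempotent `e`, the endomorphism `u ↦ u * e + (1 - e)` of the unit group
(projection onto the units of the corner ring `e R`). -/
def unitProj (e : R) (he : IsIdempotentElem e) : Rˣ →* Rˣ where
  toFun u := ⟨u * e + (1 - e), (↑u⁻¹ : R) * e + (1 - e), by
      have h1 : (u : R) * (↑u⁻¹ : R) = 1 := Units.mul_inv u
      have he' : e * e = e := he
      linear_combination (e * e) * h1 + (2 - (u : R) - (↑u⁻¹ : R)) * he', by
      have h1 : (↑u⁻¹ : R) * (u : R) = 1 := Units.inv_mul u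
      have he' : e * e = e := he
      linear_combination (e * e) * h1 + (2 - (u : R) - (↑u⁻¹ : R)) * he'⟩
  map_one' := by ext; simp
  map_mul' u v := by
    ext
    have he' : e * e = e := he
    simp only [Units.val_mul]
    linear_combination (-((u : R) * v - u - v + 1)) * he'

@[simp] lemma unitProj_coe (e : R) (he : IsIdempotentElem e) (u : Rˣ) :
    ((unitProj e he u : Rˣ) : R) = u * e + (1 - e) := rfl

lemma unitProj_unitProj_same (e : R) (he : IsIdempotentElem e) (u : Rˣ) :
    unitProj e he (unitProj e he u) = unitProj e he u := by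
  ext
  have he' : e * e = e := he
  simp only [unitProj_coe]
  linear_combination ((u : R) - 1) * he'

lemma unitProj_unitProj_ortho (e f : R) (he : IsIdempotentElem e) (hf : IsIdempotentElem f)
    (hef : e * f = 0) (u : Rˣ) : unitProj e he (unitProj f hf u) = 1 := by
  ext
  simp only [unitProj_coe, Units.val_one]
  linear_combination ((u : R) - 1) * hef

lemma prod_unitProj_coe {X : Type*} [DecidableEq X] (e : X → R)
    (he : OrthogonalIdempotents e) (u : Rˣ) (s : Finset X) :
    ((∏ x ∈ s, unitProj (e x) (he.idem x) u : Rˣ) : R) =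
      u * (∑ x ∈ s, e x) + (1 - ∑ x ∈ s, e x) := by
  induction s using Finset.induction_on with
  | empty => simp
  | insert y s hy ih =>
    rw [Finset.prod_insert hy, Units.val_mul, ih, Finset.sum_insert hy, unitProj_coe]
    have h0 : e y * ∑ x ∈ s, e x = 0 := by
      rw [Finset.mul_sum]
      refine Finset.sum_eq_zero fun x hx => ?_
      exact he.ortho (fun h => hy (h ▸ hx))
    linear_combination ((u : R) - 1) ^ 2 * h0

lemma prod_unitProj {X : Type*} [Fintype X] (e : X → R)
    (he : CompleteOrthogonalIdempotents e) (u : Rˣ) :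
    ∏ x, unitProj (e x) (he.idem x) u = u := by
  classical
  ext
  rw [prod_unitProj_coe e he.toOrthogonalIdempotents u Finset.univ, he.complete]
  ring

end RingForm

section RingSystem

variable {G R : Type} [Group G] [CommRing R] [MulSemiringAction G R] [MulDistribMulAction G Rˣ]
  {X : Type*} [MulAction G X] [Fintype X]

/-- (U2) A commutative ring `R` with a `G`-action by ring automorphisms and a `G`-permuted
complete family of orthogonal idempotents `e x` gives an imprimitivity system on `Rˣ`,
with `π x u = u * e x + (1 - e x)`.  The action on `Rˣ` is any instance compatible with the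
action on `R` (hypothesis `hcoe`). -/
def ImprimitivitySystem.ofIdempotents
    (hcoe : ∀ (g : G) (u : Rˣ), ((g • u : Rˣ) : R) = g • (u : R))
    (e : X → R) (he : CompleteOrthogonalIdempotents e)
    (hge : ∀ (g : G) x, g • e x = e (g • x)) :
    ImprimitivitySystem (Rep.ofMulDistribMulAction G Rˣ) X :=
  ImprimitivitySystem.ofMulDistrib (fun x => unitProj (e x) (he.idem x))
    (fun _ u => unitProj_unitProj_same _ _ u)
    (fun _ _ hxy u => unitProj_unitProj_ortho _ _ _ _ (he.ortho hxy) u)
    (prod_unitProj e he)
    (fun g x u => by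
      ext
      simp only [hcoe, unitProj_coe, smul_add, smul_mul', smul_sub, smul_one, hge])

lemma ImprimitivitySystem.ofIdempotents_π_apply
    (hcoe : ∀ (g : G) (u : Rˣ), ((g • u : Rˣ) : R) = g • (u : R))
    (e : X → R) (he : CompleteOrthogonalIdempotents e)
    (hge : ∀ (g : G) x, g • e x = e (g • x)) (x : X) (m : (Rep.ofMulDistribMulAction G Rˣ).V) :
    (ImprimitivitySystem.ofIdempotents hcoe e he hge).π x m =
      Rep.toAdditive.symm
        (Additive.ofMul (unitProj (e x) (he.idem x) (Rep.toAdditive m).toMul)) := rfl

/-- Membership in the block at `x`: the units congruent to `1` modulo `1 - e x`. -/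
lemma ImprimitivitySystem.mem_block_ofIdempotents_iff
    (hcoe : ∀ (g : G) (u : Rˣ), ((g • u : Rˣ) : R) = g • (u : R))
    (e : X → R) (he : CompleteOrthogonalIdempotents e)
    (hge : ∀ (g : G) x, g • e x = e (g • x)) (x : X) (m : (Rep.ofMulDistribMulAction G Rˣ).V) :
    m ∈ (ImprimitivitySystem.ofIdempotents hcoe e he hge).block x ↔
      (((Rep.toAdditive m).toMul : Rˣ) : R) * (1 - e x) = 1 - e x := by
  rw [ImprimitivitySystem.mem_block_iff, ImprimitivitySystem.ofIdempotents_π_apply]
  constructor
  · intro h
    have h' := congrArg (fun a => (((Rep.toAdditive a).toMul : Rˣ) : R)) h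
    simp only [AddEquiv.apply_symm_apply, toMul_ofMul, unitProj_coe] at h'
    linear_combination -h'
  · intro h
    apply Rep.toAdditive.injective
    rw [AddEquiv.apply_symm_apply]
    apply congrArg Additive.ofMul (a₂ := (Rep.toAdditive m).toMul)
    ext
    simp only [unitProj_coe]
    linear_combination -h

end RingSystem

section BlockIso

variable {G R T : Type} [Group G] [CommRing R] [MulSemiringAction G R]
  [MulDistribMulAction G Rˣ] {X : Type*} [MulAction G X] [Fintype X]
  (hcoe : ∀ (g : G) (u : Rˣ), ((g • u : Rˣ) : R) = g • (u : R))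
  (e : X → R) (he : CompleteOrthogonalIdempotents e)
  (hge : ∀ (g : G) x, g • e x = e (g • x)) (x0 : X)
  [CommRing T] [MulDistribMulAction (MulAction.stabilizer G x0) Tˣ]
  (φ : R →+* T)
  (hφ : ∀ (h : MulAction.stabilizer G x0) (u : Rˣ),
    Units.map (φ : R →* T) ((h : G) • u) = h • Units.map (φ : R →* T) u)

/-- The map from the block at `x0` to the units of a quotient ring `T` of `R`. -/
noncomputable def blockToUnits :
    (ImprimitivitySystem.ofIdempotents hcoe e he hge).stabRep x0 ⟶
      Rep.ofMulDistribMulAction (MulAction.stabilizer G x0) Tˣ :=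
  Rep.ofHom ⟨((Units.map (φ : R →* T)).toAdditive.toIntLinearMap).comp
      (Submodule.subtype _), fun h => by
    refine LinearMap.ext fun m => ?_
    exact congrArg Additive.ofMul
      (hφ h (Rep.toAdditive (M := G) (G := Rˣ) (m : (Rep.ofMulDistribMulAction G Rˣ).V)).toMul)⟩

lemma blockToUnits_hom_apply
    (m : ((ImprimitivitySystem.ofIdempotents hcoe e he hge).stabRep x0).V) :
    (blockToUnits hcoe e he hge x0 φ hφ).hom m =
      (Rep.toAdditive (M := MulAction.stabilizer G x0) (G := Tˣ)).symm
        (Additive.ofMul (Units.map (φ : R →* T)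
          ((Rep.toAdditive (M := G) (G := Rˣ)
            (m : (Rep.ofMulDistribMulAction G Rˣ).V)).toMul))) := rfl

variable (hφe : φ (e x0) = 1) (hker : ∀ r, φ r = 0 → r * e x0 = 0)
  (hsurj : Function.Surjective φ)

include hker in
lemma blockToUnits_injective :
    Function.Injective (blockToUnits hcoe e he hge x0 φ hφ).hom := by
  rw [injective_iff_map_eq_zero]
  intro m hm
  have hmem := (ImprimitivitySystem.mem_block_ofIdempotents_iff hcoe e he hge x0 m.1).1 m.2
  set u : Rˣ := (Rep.toAdditive (M := G) (G := Rˣ)
    (m : (Rep.ofMulDistribMulAction G Rˣ).V)).toMul with hu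
  have h1 : Units.map (φ : R →* T) u = 1 := by
    rw [blockToUnits_hom_apply] at hm
    exact congrArg
      (fun a => (Rep.toAdditive (M := MulAction.stabilizer G x0) (G := Tˣ) a).toMul) hm
  have h2 : φ (u : R) = 1 := by
    have := congrArg (fun a : Tˣ => (a : T)) h1
    simpa using this
  have h3 : ((u : R) - 1) * e x0 = 0 := hker _ (by simp [h2])
  have h4 : (u : R) = 1 := by linear_combination hmem + h3
  have h5 : u = 1 := Units.ext h4
  apply Subtype.ext
  apply (Rep.toAdditive (M := G) (G := Rˣ)).injective
  apply Additive.toMul.injective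
  rw [← hu, h5]
  rfl

include hφe hker hsurj in
lemma blockToUnits_surjective :
    Function.Surjective (blockToUnits hcoe e he hge x0 φ hφ).hom := by
  intro t
  set s : Tˣ := (Rep.toAdditive (M := MulAction.stabilizer G x0) (G := Tˣ) t).toMul with hs
  obtain ⟨r, hr⟩ := hsurj (s : T)
  obtain ⟨r', hr'⟩ := hsurj ((s⁻¹ : Tˣ) : T)
  have hee : e x0 * e x0 = e x0 := he.idem x0
  have h0 : (r * r' - 1) * e x0 = 0 := hker _ (by simp [hr, hr'])
  have h0' : (r' * r - 1) * e x0 = 0 := hker _ (by simp [hr, hr'])
  let u : Rˣ := ⟨r * e x0 + (1 - e x0), r' * e x0 + (1 - e x0), by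
    linear_combination (r * r' - r - r' + 1) * hee + h0, by
    linear_combination (r' * r - r - r' + 1) * hee + h0'⟩
  have hmem : (Rep.toAdditive (M := G) (G := Rˣ)).symm (Additive.ofMul u) ∈
      (ImprimitivitySystem.ofIdempotents hcoe e he hge).block x0 := by
    rw [ImprimitivitySystem.mem_block_ofIdempotents_iff]
    simp only [AddEquiv.apply_symm_apply, toMul_ofMul]
    change (r * e x0 + (1 - e x0)) * (1 - e x0) = 1 - e x0
    linear_combination (1 - r) * hee
  refine ⟨⟨_, hmem⟩, ?_⟩
  rw [blockToUnits_hom_apply]
  apply (Rep.toAdditive (M := MulAction.stabilizer G x0) (G := Tˣ)).injective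
  rw [AddEquiv.apply_symm_apply]
  apply Additive.toMul.injective
  rw [toMul_ofMul, ← hs]
  simp only [AddEquiv.apply_symm_apply, toMul_ofMul]
  ext
  simp [u, hr, hφe]

/-- The block at `x0` of the unit group of `R` is the unit group of the quotient ring
`T ≅ R / (1 - e x0)`, as representations of the stabiliser of `x0`. -/
noncomputable def blockUnitsIso :
    (ImprimitivitySystem.ofIdempotents hcoe e he hge).stabRep x0 ≅
      Rep.ofMulDistribMulAction (MulAction.stabilizer G x0) Tˣ :=
  haveI : Mono (blockToUnits hcoe e he hge x0 φ hφ) :=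
    (Rep.mono_iff_injective _).2 (blockToUnits_injective hcoe e he hge x0 φ hφ hker)
  haveI : Epi (blockToUnits hcoe e he hge x0 φ hφ) :=
    (Rep.epi_iff_surjective _).2
      (blockToUnits_surjective hcoe e he hge x0 φ hφ hφe hker hsurj)
  haveI : IsIso (blockToUnits hcoe e he hge x0 φ hφ) := isIso_of_mono_of_epi _
  asIso (blockToUnits hcoe e he hge x0 φ hφ)

/-- **Semilocal Shapiro for units**: `Hⁿ(G, Rˣ) ≅ Hⁿ(G_{x0}, Tˣ)` for a ring `R` whose
primitive idempotents are permuted transitively by `G`, and `T = R / (1 - e x0)`. -/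
noncomputable def unitsShapiroIso [MulAction.IsPretransitive G X] (n : ℕ) :
    groupCohomology (Rep.ofMulDistribMulAction G Rˣ) n ≅
      groupCohomology (Rep.ofMulDistribMulAction (MulAction.stabilizer G x0) Tˣ) n :=
  (ImprimitivitySystem.ofIdempotents hcoe e he hge).shapiroIso x0 n ≪≫
    (groupCohomology.functor ℤ (MulAction.stabilizer G x0) n).mapIso
      (blockUnitsIso hcoe e he hge x0 φ hφ hφe hker hsurj)

end BlockIso

end Fermat.Agent.CFT.C1
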